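import Fermat.Agent.Duality.PT.Nondeg

/-!
# Euler characteristic and perfectness over a group with `p`-group image
-/

set_option autoImplicit false

namespace FermatAgent.Duality

open Module

noncomputable section

variable {p : ℕ} [Fact p.Prime] {G : Type} [Group G] {L : LevelSystem G} (N : Subgroup G)
  [N.Normal] (hN : IsPGroup p (G ⧸ N)) (hlev : ∃ V ∈ L.lev, V ≤ N)

/-- Finiteness and the Euler characteristic `-e dim M`. -/
def EulerLaw (L : LevelSystem G) (e : ℤ) {M : Type} [AddCommGroup M] [Module (ZMod p) M]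
    (ρ : Representation (ZMod p) G M) : Prop :=
  FiniteDimensional (ZMod p) (H1c L ρ) ∧ FiniteDimensional (ZMod p) (H2c L ρ) ∧
    (finrank (ZMod p) ρ.invariants : ℤ) - finrank (ZMod p) (H1c L ρ) +
      finrank (ZMod p) (H2c L ρ) = -e * finrank (ZMod p) M

section Additive

variable {A B C : Type} [AddCommGroup A] [Module (ZMod p) A] [AddCommGroup B] [Module (ZMod p) B]
  [AddCommGroup C] [Module (ZMod p) C] [FiniteDimensional (ZMod p) B]
  {ρA : Representation (ZMod p) G A} {ρB : Representation (ZMod p) G B}
  {ρC : Representation (ZMod p) G C}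

/-- The map on invariants induced by the inclusion. -/
def SES.inv0 (S : SES ρA ρB ρC) : ρA.invariants →ₗ[ZMod p] ρB.invariants :=
  S.incl.restrict fun a ha g => by rw [← S.incl_equiv, ha g]

/-- The map on invariants induced by the projection. -/
def SES.pinv0 (S : SES ρA ρB ρC) : ρB.invariants →ₗ[ZMod p] ρC.invariants :=
  S.proj.restrict fun a ha g => by rw [← S.proj_equiv, ha g]

/-- `h⁰ - h¹ + h²`. -/
def eulerChar (L : LevelSystem G) {M : Type} [AddCommGroup M] [Module (ZMod p) M]
    (ρ : Representation (ZMod p) G M) : ℤ :=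
  (finrank (ZMod p) ρ.invariants : ℤ) - finrank (ZMod p) (H1c L ρ) + finrank (ZMod p) (H2c L ρ)

/-- `h⁰ - h¹ + h²` is additive in extensions when `H²` is right exact. -/
theorem eulerChar_of_SES (S : SES ρA ρB ρC) (hB : IsSmooth L ρB)
    [FiniteDimensional (ZMod p) (H1c L ρA)] [FiniteDimensional (ZMod p) (H1c L ρC)]
    [FiniteDimensional (ZMod p) (H2c L ρA)] [FiniteDimensional (ZMod p) (H2c L ρC)]
    (hp2 : Function.Surjective (S.p2 L)) :
    FiniteDimensional (ZMod p) (H1c L ρB) ∧ FiniteDimensional (ZMod p) (H2c L ρB) ∧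
      eulerChar L ρB = eulerChar L ρA + eulerChar L ρC := by
  have : Finite (H1c L ρA) := Module.finite_of_finite (ZMod p)
  have : Finite (H1c L ρC) := Module.finite_of_finite (ZMod p)
  have : Finite (H2c L ρA) := Module.finite_of_finite (ZMod p)
  have : Finite (H2c L ρC) := Module.finite_of_finite (ZMod p)
  have h1 : FiniteDimensional (ZMod p) (H1c L ρB) := by
    have : Finite (LinearMap.ker (S.p1 L)) := by
      rw [← S.range_i1 L hB]
      exact Finite.of_surjective (S.i1 L).rangeRestrict (S.i1 L).surjective_rangeRestrict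
    have : Finite (H1c L ρB ⧸ LinearMap.ker (S.p1 L)) :=
      Finite.of_equiv _ (S.p1 L).quotKerEquivRange.toEquiv.symm
    exact Module.Finite.of_submodule_quotient (LinearMap.ker (S.p1 L))
  have h2 : FiniteDimensional (ZMod p) (H2c L ρB) := by
    have : Finite (LinearMap.ker (S.p2 L)) := by
      rw [← S.range_i2 L hB]
      exact Finite.of_surjective (S.i2 L).rangeRestrict (S.i2 L).surjective_rangeRestrict
    have : Finite (H2c L ρB ⧸ LinearMap.ker (S.p2 L)) :=
      Finite.of_equiv _ (S.p2 L).quotKerEquivRange.toEquiv.symm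
    exact Module.Finite.of_submodule_quotient (LinearMap.ker (S.p2 L))
  refine ⟨h1, h2, ?_⟩
  have : Finite B := Module.finite_of_finite (ZMod p)
  have : FiniteDimensional (ZMod p) A := Module.Finite.of_injective S.incl S.injective
  have : FiniteDimensional (ZMod p) C := Module.Finite.of_surjective S.proj S.surjective
  have hi0 : Function.Injective S.inv0 := fun a b h =>
    Subtype.ext (S.injective (congrArg Subtype.val h))
  have e0 : LinearMap.ker S.pinv0 = LinearMap.range S.inv0 := by
    ext b
    refine ⟨fun h => ?_, ?_⟩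
    · obtain ⟨a, ha⟩ := (S.exact b.1).mp (congrArg Subtype.val h)
      exact ⟨⟨a, fun g => S.injective (by rw [S.incl_equiv, ha, b.2 g])⟩, Subtype.ext ha⟩
    · rintro ⟨a, rfl⟩
      exact Subtype.ext (S.proj_incl a.1)
  have e0' : LinearMap.ker (S.delta₀ L hB) = LinearMap.range S.pinv0 := by
    ext c
    rw [LinearMap.mem_ker, S.delta₀_eq_zero_iff]
    refine ⟨fun ⟨b, hb, h⟩ => ⟨⟨b, hb⟩, Subtype.ext h⟩, ?_⟩
    rintro ⟨b, rfl⟩
    exact ⟨b.1, b.2, rfl⟩
  have r0 := LinearMap.finrank_range_add_finrank_ker S.pinv0
  have r0' := LinearMap.finrank_range_add_finrank_ker (S.delta₀ L hB)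
  have r1 := LinearMap.finrank_range_add_finrank_ker (S.i1 L)
  have r1' := LinearMap.finrank_range_add_finrank_ker (S.p1 L)
  have r2 := LinearMap.finrank_range_add_finrank_ker (S.delta₁ L hB)
  have r3 := LinearMap.finrank_range_add_finrank_ker (S.i2 L)
  have r4 := LinearMap.finrank_range_add_finrank_ker (S.p2 L)
  rw [e0, LinearMap.finrank_range_of_inj hi0] at r0
  rw [e0'] at r0'
  rw [← S.range_delta₀ L hB] at r1
  rw [← S.range_i1 L hB] at r1'
  rw [← S.range_p1 L hB] at r2
  rw [← S.range_delta₁ L hB] at r3
  rw [← S.range_i2 L hB, LinearMap.range_eq_top.mpr hp2, finrank_top] at r4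
  simp only [eulerChar]
  omega

/-- The Euler law is closed under extensions when `H²` is right exact. -/
theorem EulerLaw.of_SES (S : SES ρA ρB ρC) (hB : IsSmooth L ρB) {e : ℤ}
    (hA : EulerLaw L e ρA) (hC : EulerLaw L e ρC) (hp2 : Function.Surjective (S.p2 L)) :
    EulerLaw L e ρB := by
  obtain ⟨hA1, hA2, hAe⟩ := hA
  obtain ⟨hC1, hC2, hCe⟩ := hC
  obtain ⟨h1, h2, he⟩ := eulerChar_of_SES S hB hp2
  refine ⟨h1, h2, ?_⟩
  have : FiniteDimensional (ZMod p) A := Module.Finite.of_injective S.incl S.injective
  have : FiniteDimensional (ZMod p) C := Module.Finite.of_surjective S.proj S.surjective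
  have hdim : finrank (ZMod p) B = finrank (ZMod p) A + finrank (ZMod p) C := by
    rw [← LinearMap.finrank_range_add_finrank_ker S.proj,
      LinearMap.range_eq_top.mpr S.surjective, finrank_top, LinearMap.exact_iff.mp S.exact,
      LinearMap.finrank_range_of_inj S.injective]
    omega
  simp only [eulerChar] at he
  rw [hdim]
  push_cast
  rw [mul_add, ← hAe, ← hCe]
  exact he

end Additive

variable {M : Type} [AddCommGroup M] [Module (ZMod p) M] [FiniteDimensional (ZMod p) M]
  {ρ : Representation (ZMod p) G M}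

/-- A chosen isomorphism of a line with `𝔽_p`. -/
def lineIso {M : Type} [AddCommGroup M] [Module (ZMod p) M] (h : finrank (ZMod p) M = 1) :
    M ≃ₗ[ZMod p] ZMod p :=
  haveI : FiniteDimensional (ZMod p) M := Module.finite_of_finrank_eq_succ h
  LinearEquiv.ofFinrankEq _ _ (by rw [h, finrank_self])

lemma isEquivariant_line {M : Type} [AddCommGroup M] [Module (ZMod p) M]
    {ρ : Representation (ZMod p) G M} (ht : ∀ g m, ρ g m = m) (h : finrank (ZMod p) M = 1) :
    IsEquivariant ρ (triv (ZMod p) G) (MonoidHom.id G) (lineIso h).toLinearMap := fun g m => by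
  simp [ht]

lemma isEquivariant_line_symm {M : Type} [AddCommGroup M] [Module (ZMod p) M]
    {ρ : Representation (ZMod p) G M} (ht : ∀ g m, ρ g m = m) (h : finrank (ZMod p) M = 1) :
    IsEquivariant (triv (ZMod p) G) ρ (MonoidHom.id G) (lineIso h).symm.toLinearMap := fun g m => by
  simp [ht]

/-- The Euler law for a line. -/
theorem eulerLaw_line {e : ℤ} (hbase : EulerLaw L e (triv (ZMod p) G))
    {M : Type} [AddCommGroup M] [Module (ZMod p) M] (ρ : Representation (ZMod p) G M)
    (ht : ∀ g m, ρ g m = m) (h : finrank (ZMod p) M = 1) : EulerLaw L e ρ := by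
  obtain ⟨h1, h2, he⟩ := hbase
  let f1 : H1c L (triv (ZMod p) G) ≃ₗ[ZMod p] H1c L ρ :=
    LinearEquiv.ofLinearMap
      (map1 _ _ (isLevHom_id L) (isEquivariant_line_symm ht h))
      (map1 _ _ (isLevHom_id L) (isEquivariant_line ht h))
      (LinearMap.ext fun x => by
        induction x using Submodule.Quotient.induction_on with
        | _ z =>
          exact congrArg (cl1 L ρ)
            (Subtype.ext (funext fun g => (lineIso h).symm_apply_apply _)))
      (LinearMap.ext fun x => by
        induction x using Submodule.Quotient.induction_on with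
        | _ z =>
          exact congrArg (cl1 L (triv (ZMod p) G))
            (Subtype.ext (funext fun g => (lineIso h).apply_symm_apply _)))
  let f2 : H2c L (triv (ZMod p) G) ≃ₗ[ZMod p] H2c L ρ :=
    LinearEquiv.ofLinearMap
      (map2 _ _ (isLevHom_id L) (isEquivariant_line_symm ht h))
      (map2 _ _ (isLevHom_id L) (isEquivariant_line ht h))
      (LinearMap.ext fun x => by
        induction x using Submodule.Quotient.induction_on with
        | _ z =>
          exact congrArg (cl2 L ρ)
            (Subtype.ext (funext fun g => (lineIso h).symm_apply_apply _)))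
      (LinearMap.ext fun x => by
        induction x using Submodule.Quotient.induction_on with
        | _ z =>
          exact congrArg (cl2 L (triv (ZMod p) G))
            (Subtype.ext (funext fun g => (lineIso h).apply_symm_apply _)))
  refine ⟨Module.Finite.equiv f1, Module.Finite.equiv f2, ?_⟩
  have i1 : (triv (ZMod p) G).invariants = ⊤ := eq_top_iff.mpr fun x _ g => rfl
  have i2 : ρ.invariants = ⊤ := eq_top_iff.mpr fun x _ g => ht g x
  rw [i1, finrank_top, finrank_self] at he
  rw [i2, finrank_top, h, ← f1.finrank_eq, ← f2.finrank_eq]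
  exact he

include hN hlev in
/-- The Euler law for all modules on which `N` acts trivially. -/
theorem eulerLaw_pGroup {e : ℤ} (h2 : RightExact2 p L N)
    (hbase : EulerLaw L e (triv (ZMod p) G)) (hρ : TrivialOn N ρ) : EulerLaw L e ρ := by
  refine pGroup_induction (p := p) N hN (fun {M} _ _ σ => EulerLaw L e σ) ?_ ?_ ?_ ρ hρ
  · intro M _ _ _ σ
    have : Subsingleton (H1c L σ) := Function.Surjective.subsingleton
      (Submodule.mkQ_surjective (B1 L σ))
    have : Subsingleton (H2c L σ) := Function.Surjective.subsingleton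
      (Submodule.mkQ_surjective (B2 L σ))
    refine ⟨inferInstance, inferInstance, ?_⟩
    rw [finrank_zero_of_subsingleton, finrank_zero_of_subsingleton, finrank_zero_of_subsingleton,
      finrank_zero_of_subsingleton]
    simp
  · intro M _ _ σ ht h
    exact eulerLaw_line hbase σ ht h
  · intro A B C _ _ _ _ _ _ _ ρA ρB ρC S _ hB _ iA iC
    have : Finite B := Module.finite_of_finite (ZMod p)
    exact EulerLaw.of_SES S (hB.isSmooth N hlev) iA iC
      (h2 ρB ρC S.proj S.isEquivariant_proj S.surjective hB)

variable (χ : G →* (ZMod p)ˣ) (inv : H2c L (cyc χ) →ₗ[ZMod p] ZMod p)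

include hN hlev in
/-- Nondegeneracy for all modules on which `N` acts trivially. -/
theorem leftNondeg_pGroup [Fintype (G ⧸ N)] (hχ : ∀ g, χ g = 1) (h2 : RightExact2 p L N)
    (hbij : Function.Bijective (invCores L N hlev χ inv))
    (hbase : LeftNondeg χ (triv (ZMod p) G) L inv) (hρ : TrivialOn N ρ) :
    LeftNondeg χ ρ L inv := by
  refine pGroup_induction (p := p) N hN
    (fun {M} _ _ σ => LeftNondeg χ σ L inv) ?_ ?_ ?_ ρ hρ
  · intro M _ _ _ σ x _
    have : Subsingleton (H1c L σ) := Function.Surjective.subsingleton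
      (Submodule.mkQ_surjective (B1 L σ))
    exact Subsingleton.elim _ _
  · intro M _ _ σ ht h x hx
    have hinj : Function.Injective
        (map1 σ (triv (ZMod p) G) (isLevHom_id L) (isEquivariant_line ht h)) := by
      intro a b hab
      have := congrArg (map1 _ σ (isLevHom_id L) (isEquivariant_line_symm ht h)) hab
      rw [map1_map1, map1_map1] at this
      have key : ∀ z : H1c L σ, map1 σ σ ((isLevHom_id L).trans (isLevHom_id L))
          ((isEquivariant_line ht h).trans (isEquivariant_line_symm ht h)) z = z := fun z => by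
        induction z using Submodule.Quotient.induction_on with
        | _ z =>
          exact congrArg (cl1 L σ)
            (Subtype.ext (funext fun g => (lineIso h).symm_apply_apply _))
      rwa [key, key] at this
    refine hinj ?_
    rw [map_zero]
    refine hbase _ fun y => ?_
    rw [pair1_map1]
    exact hx _
  · intro A B C _ _ _ _ _ _ _ ρA ρB ρC S hA hB hC iA iC x hx
    have : Finite B := Module.finite_of_finite (ZMod p)
    have : FiniteDimensional (ZMod p) C := Module.Finite.of_surjective S.proj S.surjective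
    have hNχ : ∀ n ∈ N, χ n = 1 := fun n _ => hχ n
    have hB' : IsSmooth L (dualTw χ ρB) :=
      (show TrivialOn N (dualTw χ ρB) from trivialOn_dualTw χ ρB hNχ hB).isSmooth N hlev
    have hBs := hB.isSmooth N hlev
    have h1 : S.p1 L x = 0 := iC _ fun y => by
      rw [pair1_map1]
      exact hx _
    obtain ⟨a, rfl⟩ : x ∈ LinearMap.range (S.i1 L) := by
      rw [S.range_i1 L hBs]; exact h1
    let φ := pair1 χ ρA L inv a
    have hφ : LinearMap.ker ((S.dual χ).delta₁ L hB') ≤ LinearMap.ker φ := by
      rw [← (S.dual χ).range_p1 L hB']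
      rintro _ ⟨y, rfl⟩
      rw [LinearMap.mem_ker]
      exact (pair1_map1 χ inv S.isEquivariant_incl a y).symm.trans (hx y)
    obtain ⟨ψ, hψ⟩ : φ ∈ LinearMap.range ((S.dual χ).delta₁ L hB').dualMap := by
      rw [LinearMap.range_dualMap_eq_dualAnnihilator_ker]
      exact (Submodule.mem_dualAnnihilator _).mpr fun y hy => hφ hy
    have hC' : TrivialOn N (dualTw χ ρC) := trivialOn_dualTw χ ρC hNχ hC
    let Ev := LinearEquiv.ofBijective (dualEval L χ inv (ρ := dualTw χ ρC))
      (dualEval_bijective L N hlev χ inv hNχ hC' hbij h2)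
    obtain ⟨c'', hc''⟩ := (Module.evalEquiv (ZMod p) _).surjective (ψ ∘ₗ Ev.symm.toLinearMap)
    obtain ⟨c, hc⟩ := (Module.evalEquiv (ZMod p) C).surjective c''.1
    have hcinv : ∀ g, ρC g c = c := fun g => by
      refine (Module.evalEquiv (ZMod p) C).injective ?_
      have h := c''.2 g
      rw [← hc] at h
      exact (dualTw_dualTw_eval χ ρC g c).symm.trans h
    have key : ∀ y, φ y = -pair1 χ ρA L inv (S.delta₀ L hBs ⟨c, hcinv⟩) y := fun y => by
      rw [← dualEval_delta₁ χ inv S hBs hB' ⟨c, hcinv⟩ y, ← hψ, LinearMap.dualMap_apply]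
      have h := LinearMap.congr_fun hc'' (Ev ((S.dual χ).delta₁ L hB' y))
      rw [LinearMap.comp_apply, LinearEquiv.coe_coe, Ev.symm_apply_apply] at h
      rw [← h]
      exact congrArg (Ev ((S.dual χ).delta₁ L hB' y)) (Subtype.ext hc.symm)
    have ha : a + S.delta₀ L hBs ⟨c, hcinv⟩ = 0 := iA _ fun y => by
      rw [map_add, LinearMap.add_apply, show pair1 χ ρA L inv a y = φ y from rfl, key,
        neg_add_cancel]
    rw [eq_neg_of_add_eq_zero_left ha, map_neg, neg_eq_zero, ← LinearMap.mem_ker,
      ← S.range_delta₀ L hBs]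
    exact ⟨_, rfl⟩

end

end FermatAgent.Duality
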