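import Fermat.Agent.Duality.PT.Local
import Fermat.Agent.Duality.Core.Projection

/-!
# The pairing in degree `1` between a module and its twisted dual
-/

set_option autoImplicit false

namespace FermatAgent.Duality

open Module

noncomputable section

section Flip

variable {k G : Type*} [CommRing k] [Group G] (L : LevelSystem G)
variable {M N P : Type*} [AddCommGroup M] [Module k M] [AddCommGroup N] [Module k N]
  [AddCommGroup P] [Module k P]
variable {ρ : Representation k G M} {σN : Representation k G N} {σP : Representation k G P}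
variable {B : M →ₗ[k] N →ₗ[k] P} (hB : IsPairing ρ σN σP B)

include hB in
lemma isPairing_flip : IsPairing σN ρ (σP := σP) B.flip := fun g n m => hB g m n

/-- The cup product is anticommutative in degree `(1, 1)`. -/
theorem cup11_flip (x : H1c L ρ) (y : H1c L σN) :
    cup11 σN L (isPairing_flip hB) y x = -cup11 ρ L hB x y := by
  induction x using Submodule.Quotient.induction_on with
  | _ a =>
  induction y using Submodule.Quotient.induction_on with
  | _ b =>
    rw [eq_neg_iff_add_eq_zero]
    show cl2 L σP _ + cl2 L σP _ = 0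
    rw [← map_add, cl2_eq_zero_iff]
    refine ⟨fun g => -B (a.1 g) (b.1 g), ?_, funext fun q => ?_⟩
    · obtain ⟨U, hU, h⟩ := a.2.1
      obtain ⟨V, hV, h'⟩ := b.2.1
      obtain ⟨W, hW, hle⟩ := L.inf_mem hU hV
      exact ⟨W, hW, fun g s hs => by simp only [h g s (hle hs).1, h' g s (hle hs).2]⟩
    obtain ⟨g, h⟩ := q
    show dd₁ σP _ (g, h) = B (ρ g (a.1 h)) (b.1 g) + B (a.1 g) (σN g (b.1 h))
    simp only [dd₁_apply, a.2.2 g h, b.2.2 g h, map_add, LinearMap.add_apply, map_neg, hB g]
    abel

end Flip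

section Dual

variable {k G : Type*} [Field k] [Group G] (χ : G →* kˣ)
variable {M : Type*} [AddCommGroup M] [Module k M] (ρ : Representation k G M)

/-- Evaluation, as a pairing into `k(χ)`. -/
lemma isPairing_eval : IsPairing ρ (dualTw χ ρ) (cyc χ) (Dual.eval k M) := fun g m f => by
  show dualTw χ ρ g f (ρ g m) = (χ g : k) * f m
  rw [dualTw_apply_rho]

lemma dualTw_dualTw_eval (g : G) (m : M) :
    dualTw χ (dualTw χ ρ) g (Dual.eval k M m) = Dual.eval k M (ρ g m) := by
  refine LinearMap.ext fun f => ?_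
  rw [dualTw_apply]
  show (χ g : k) * dualTw χ ρ g⁻¹ f m = f (ρ g m)
  rw [dualTw_apply, inv_inv, map_inv, ← mul_assoc, ← Units.val_mul, mul_inv_cancel, Units.val_one,
    one_mul]

lemma isEquivariant_eval : IsEquivariant ρ (dualTw χ (dualTw χ ρ)) (MonoidHom.id G)
    (Dual.eval k M) := fun g m => (dualTw_dualTw_eval χ ρ g m).symm

lemma trivialOn_dualTw {N : Subgroup G} (hN : ∀ n ∈ N, χ n = 1) (hρ : ∀ g ∈ N, ∀ m, ρ g m = m) :
    ∀ g ∈ N, ∀ f, dualTw χ ρ g f = f := fun g hg f => LinearMap.ext fun m => by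
  rw [dualTw_apply, hN g hg, hρ _ (N.inv_mem hg), Units.val_one, one_mul]

variable (L : LevelSystem G) (inv : H2c L (cyc χ) →ₗ[k] k)

/-- The pairing `H¹(M) × H¹(M') → k`. -/
def pair1 : H1c L ρ →ₗ[k] H1c L (dualTw χ ρ) →ₗ[k] k :=
  (cup11 ρ L (isPairing_eval χ ρ)).compr₂ inv

lemma pair1_apply (x : H1c L ρ) (y : H1c L (dualTw χ ρ)) :
    pair1 χ ρ L inv x y = inv (cup11 ρ L (isPairing_eval χ ρ) x y) := rfl

/-- The pairing of the bidual against the dual is minus the flipped pairing. -/
lemma pair1_eval (x : H1c L ρ) (y : H1c L (dualTw χ ρ)) :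
    pair1 χ (dualTw χ ρ) L inv y (map1 ρ _ (isLevHom_id L) (isEquivariant_eval χ ρ) x) =
      -pair1 χ ρ L inv x y := by
  rw [pair1_apply, pair1_apply, ← map_neg, ← cup11_flip L (isPairing_eval χ ρ) x y]
  refine congrArg inv ?_
  induction x using Submodule.Quotient.induction_on with
  | _ a =>
  induction y using Submodule.Quotient.induction_on with
  | _ b =>
    refine congrArg (cl2 L (cyc χ)) (Subtype.ext (funext fun q => ?_))
    show dualTw χ (dualTw χ ρ) q.1 (Dual.eval k M (a.1 q.2)) (b.1 q.1) = b.1 q.1 (ρ q.1 (a.1 q.2))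
    rw [dualTw_dualTw_eval]
    rfl

/-- Classes orthogonal to all classes of the dual vanish. -/
def LeftNondeg : Prop := ∀ x : H1c L ρ, (∀ y, pair1 χ ρ L inv x y = 0) → x = 0

variable [FiniteDimensional k M]

lemma map1_eval_surjective :
    Function.Surjective (map1 ρ _ (isLevHom_id L) (isEquivariant_eval χ ρ)) := fun z => by
  let e := Module.evalEquiv k M
  have he : IsEquivariant (dualTw χ (dualTw χ ρ)) ρ (MonoidHom.id G) e.symm.toLinearMap :=
    fun g φ => by
      obtain ⟨m, rfl⟩ := e.surjective φ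
      show e.symm (dualTw χ (dualTw χ ρ) g (Dual.eval k M m)) = ρ g (e.symm (e m))
      rw [dualTw_dualTw_eval, e.symm_apply_apply]
      exact e.symm_apply_apply _
  refine ⟨map1 _ _ (isLevHom_id L) he z, ?_⟩
  induction z using Submodule.Quotient.induction_on with
  | _ w =>
    exact congrArg (cl1 L (dualTw χ (dualTw χ ρ)))
      (Subtype.ext (funext fun g => e.apply_symm_apply _))

/-- Nondegeneracy on the right follows from nondegeneracy on the left for the dual. -/
theorem right_nondeg_of_left (h : LeftNondeg χ (dualTw χ ρ) L inv) (y : H1c L (dualTw χ ρ))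
    (hy : ∀ x, pair1 χ ρ L inv x y = 0) : y = 0 :=
  h y fun z => by
    obtain ⟨x, rfl⟩ := map1_eval_surjective χ ρ L z
    rw [pair1_eval, hy, neg_zero]

end Dual

section Descent

variable {p : ℕ} [Fact p.Prime] {G : Type} [Group G] (χ : G →* (ZMod p)ˣ) (L : LevelSystem G)
  (inv : H2c L (cyc χ) →ₗ[ZMod p] ZMod p) (U : Subgroup G) [Fintype (G ⧸ U)]
  (hU : ∃ V ∈ L.lev, V ≤ U)
variable {M : Type} [AddCommGroup M] [Module (ZMod p) M] (ρ : Representation (ZMod p) G M)

/-- The functional induced on a subgroup by corestriction. -/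
def invSub : H2c (L.comap U.subtype) (cyc (χ.comp U.subtype)) →ₗ[ZMod p] ZMod p :=
  inv ∘ₗ cores2 U (cyc χ) L hU

/-- The projection formula for the pairing. -/
theorem pair1_cores1 (x : H1c L ρ)
    (y : H1c (L.comap U.subtype) ((dualTw χ ρ).comp U.subtype)) :
    pair1 χ ρ L inv x (cores1 U (dualTw χ ρ) L hU y) =
      pair1 (χ.comp U.subtype) (ρ.comp U.subtype) (L.comap U.subtype) (invSub χ L inv U hU)
        (res1 L ρ U x) y := by
  rw [pair1_apply, ← cores2_cup11_res1 U L hU (isPairing_eval χ ρ) x y]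
  refine congrArg inv (congrArg (cores2 U (cyc χ) L hU) ?_)
  induction x using Submodule.Quotient.induction_on with
  | _ a =>
  induction y using Submodule.Quotient.induction_on with
  | _ b => rfl

lemma res1_injective (hidx : ¬p ∣ Fintype.card (G ⧸ U)) (hU : ∃ V ∈ L.lev, V ≤ U) :
    Function.Injective (res1 L ρ U) := by
  rw [← LinearMap.ker_eq_bot]
  refine (Submodule.eq_bot_iff _).mpr fun x hx => ?_
  have h := cores1_res1 U ρ L hU x
  rw [LinearMap.mem_ker.mp hx, map_zero, ← Nat.cast_smul_eq_nsmul (ZMod p)] at h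
  rcases smul_eq_zero.mp h.symm with h0 | h0
  · exact absurd ((CharP.cast_eq_zero_iff (ZMod p) p _).mp h0) hidx
  · exact h0

/-- Nondegeneracy descends from a subgroup of index prime to `p`. -/
theorem leftNondeg_of_index (hidx : ¬p ∣ Fintype.card (G ⧸ U))
    (h : LeftNondeg (χ.comp U.subtype) (ρ.comp U.subtype) (L.comap U.subtype)
      (invSub χ L inv U hU)) :
    LeftNondeg χ ρ L inv := fun x hx => by
  refine res1_injective L U ρ hidx hU ?_
  rw [map_zero]
  exact h _ fun y => by
    refine Eq.trans ?_ ((pair1_cores1 χ L inv U hU ρ x y).symm.trans (hx _))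
    rfl

end Descent

end

end FermatAgent.Duality
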