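import Fermat.Agent.Duality.PT.Global
import Fermat.Agent.Duality.PT.Pairing

/-!
# Localisation in degree `1` and the total pairing

The images of `H¹(M)` and of `H¹(M')` are orthogonal by reciprocity; they are exact annihilators
as soon as their dimensions add up to that of the local groups.
-/

set_option autoImplicit false

namespace FermatAgent.Duality

open Module

noncomputable section

section Linear

variable {k V W : Type*} [Field k] [AddCommGroup V] [Module k V] [FiniteDimensional k V]
  [AddCommGroup W] [Module k W] [FiniteDimensional k W] {T : V →ₗ[k] W →ₗ[k] k}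

lemma finrank_eq_of_nondeg (hl : ∀ v, (∀ w, T v w = 0) → v = 0)
    (hr : ∀ w, (∀ v, T v w = 0) → w = 0) : finrank k V = finrank k W := by
  refine le_antisymm ?_ ?_
  · have h := LinearMap.finrank_le_finrank_of_injective (f := T)
      ((injective_iff_map_eq_zero T).mpr fun v hv => hl v fun w => LinearMap.congr_fun hv w)
    rwa [Subspace.dual_finrank_eq] at h
  · have h := LinearMap.finrank_le_finrank_of_injective (f := T.flip)
      ((injective_iff_map_eq_zero T.flip).mpr fun w hw => hr w fun v => LinearMap.congr_fun hw v)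
    rwa [Subspace.dual_finrank_eq] at h

/-- Orthogonal subspaces of a nondegenerate pairing: their dimensions add up to at most that of
the space, and in case of equality the second is the full annihilator of the first. -/
theorem annihilator_of_finrank (hl : ∀ v, (∀ w, T v w = 0) → v = 0)
    (hr : ∀ w, (∀ v, T v w = 0) → w = 0) (U : Submodule k V) (U' : Submodule k W)
    (h : ∀ u ∈ U, ∀ w ∈ U', T u w = 0) :
    finrank k U + finrank k U' ≤ finrank k V ∧
      (finrank k U + finrank k U' = finrank k V →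
        ∀ w, (∀ u ∈ U, T u w = 0) → w ∈ U') := by
  let Φ : W →ₗ[k] Dual k U := U.subtype.dualMap ∘ₗ T.flip
  have hVW := finrank_eq_of_nondeg hl hr
  have hinj : Function.Injective T.flip :=
    (injective_iff_map_eq_zero T.flip).mpr fun w hw => hr w fun v => LinearMap.congr_fun hw v
  have hsurj : Function.Surjective T.flip :=
    (LinearMap.injective_iff_surjective_of_finrank_eq_finrank
      (by rw [Subspace.dual_finrank_eq, hVW])).mp hinj
  have hΦ : LinearMap.range Φ = ⊤ := LinearMap.range_eq_top.mpr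
    ((LinearMap.dualMap_surjective_of_injective U.subtype_injective).comp hsurj)
  have hker := LinearMap.finrank_range_add_finrank_ker Φ
  rw [hΦ, finrank_top, Subspace.dual_finrank_eq, ← hVW] at hker
  have hle : U' ≤ LinearMap.ker Φ := fun w hw =>
    LinearMap.mem_ker.mpr (LinearMap.ext fun u => h u.1 u.2 w hw)
  have hdim := Submodule.finrank_mono hle
  refine ⟨by omega, fun heq w hw => ?_⟩
  rw [Submodule.eq_of_le_of_finrank_eq hle (by omega)]
  exact LinearMap.mem_ker.mpr (LinearMap.ext fun u => hw u.1 u.2)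

end Linear

namespace Datum

variable {p : ℕ} [Fact p.Prime] {G : Type} [Group G] (P : Datum p G)
variable {M : Type} [AddCommGroup M] [Module (ZMod p) M] (ρ : Representation (ZMod p) G M)

/-- Families of local classes in degree `1`. -/
abbrev Loc1 : Type := ∀ i, H1c (P.locLev i) (ρ.comp (P.D i).subtype)

instance instAddCommGroupLoc1 : AddCommGroup (P.Loc1 ρ) := Pi.addCommGroup

instance instModuleLoc1 : Module (ZMod p) (P.Loc1 ρ) := Pi.module _ _ _

/-- Localisation at all places. -/
def locAll : H1c P.L ρ →ₗ[ZMod p] P.Loc1 ρ := LinearMap.pi fun i => P.loc1 ρ i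

@[simp] lemma locAll_apply (x : H1c P.L ρ) (i : P.ι) : P.locAll ρ x i = P.loc1 ρ i x := rfl

/-- The local pairing at a place. -/
def pairAt (i : P.ι) : H1c (P.locLev i) (ρ.comp (P.D i).subtype) →ₗ[ZMod p]
    H1c (P.locLev i) ((dualTw P.χ ρ).comp (P.D i).subtype) →ₗ[ZMod p] ZMod p :=
  pair1 (P.χ.comp (P.D i).subtype) (ρ.comp (P.D i).subtype) (P.locLev i) (P.inv i)

/-- The sum of the local pairings. -/
def pairLoc : P.Loc1 ρ →ₗ[ZMod p] P.Loc1 (dualTw P.χ ρ) →ₗ[ZMod p] ZMod p :=
  LinearMap.mk₂ (ZMod p) (fun x y => ∑ i, P.pairAt ρ i (x i) (y i))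
    (fun a b y => by simp [Finset.sum_add_distrib])
    (fun r a y => by simp [Finset.mul_sum])
    (fun x a b => by simp [Finset.sum_add_distrib])
    (fun r x a => by simp [Finset.mul_sum])

lemma pairLoc_apply (x : P.Loc1 ρ) (y : P.Loc1 (dualTw P.χ ρ)) :
    P.pairLoc ρ x y = ∑ i, P.pairAt ρ i (x i) (y i) := rfl

/-- The images of global classes are orthogonal. -/
theorem pairLoc_locAll (hrec : ∀ x : H2c P.L (cyc P.χ), ∑ i, P.inv i (P.loc2 (cyc P.χ) i x) = 0)
    (x : H1c P.L ρ) (y : H1c P.L (dualTw P.χ ρ)) :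
    P.pairLoc ρ (P.locAll ρ x) (P.locAll (dualTw P.χ ρ) y) = 0 := by
  rw [pairLoc_apply, ← hrec (cup11 ρ P.L (isPairing_eval P.χ ρ) x y)]
  refine Finset.sum_congr rfl fun i _ => congrArg (P.inv i) ?_
  rw [locAll_apply, locAll_apply]
  induction x using Submodule.Quotient.induction_on with
  | _ a =>
  induction y using Submodule.Quotient.induction_on with
  | _ b => rfl

variable [FiniteDimensional (ZMod p) M]
  (hl : ∀ i, LeftNondeg (P.χ.comp (P.D i).subtype) (ρ.comp (P.D i).subtype) (P.locLev i) (P.inv i))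
  (hl' : ∀ i, LeftNondeg (P.χ.comp (P.D i).subtype) ((dualTw P.χ ρ).comp (P.D i).subtype)
    (P.locLev i) (P.inv i))

include hl in
omit [FiniteDimensional (ZMod p) M] in
lemma pairLoc_left (x : P.Loc1 ρ) (h : ∀ y, P.pairLoc ρ x y = 0) : x = 0 := by
  classical
  refine funext fun i => ?_
  have key : ∀ y : H1c (P.locLev i) ((dualTw P.χ ρ).comp (P.D i).subtype),
      P.pairAt ρ i (x i) y = 0 := fun y => by
    let : ∀ j, Zero (H1c (P.locLev j) ((dualTw P.χ ρ).comp (P.D j).subtype)) :=
      fun j => inferInstance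
    have h1 := h (Pi.single i y)
    rw [pairLoc_apply, Finset.sum_eq_single i
      (fun j _ hj => by rw [Pi.single_eq_of_ne hj]; exact map_zero _) (by simp),
      Pi.single_eq_same] at h1
    exact h1
  exact hl i (x i) fun y => key y

include hl' in
lemma pairLoc_right (y : P.Loc1 (dualTw P.χ ρ)) (h : ∀ x, P.pairLoc ρ x y = 0) : y = 0 := by
  classical
  refine funext fun i => right_nondeg_of_left (P.χ.comp (P.D i).subtype) (ρ.comp (P.D i).subtype)
    (P.locLev i) (P.inv i) (hl' i) (y i) fun x => ?_
  have h1 := h (Pi.single i x)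
  rw [pairLoc_apply, Finset.sum_eq_single i
    (fun j _ hj => by rw [Pi.single_eq_of_ne hj, map_zero, LinearMap.zero_apply]) (by simp),
    Pi.single_eq_same] at h1
  exact h1

include hl hl' in
/-- If the images of the global classes are big enough they are exact annihilators. -/
theorem exact_of_finrank [∀ i, FiniteDimensional (ZMod p) (H1c (P.locLev i) (ρ.comp (P.D i).subtype))]
    [∀ i, FiniteDimensional (ZMod p)
      (H1c (P.locLev i) ((dualTw P.χ ρ).comp (P.D i).subtype))]
    (hrec : ∀ x : H2c P.L (cyc P.χ), ∑ i, P.inv i (P.loc2 (cyc P.χ) i x) = 0) :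
    finrank (ZMod p) (LinearMap.range (P.locAll ρ)) +
        finrank (ZMod p) (LinearMap.range (P.locAll (dualTw P.χ ρ))) ≤
          finrank (ZMod p) (P.Loc1 ρ) ∧
      (finrank (ZMod p) (LinearMap.range (P.locAll ρ)) +
          finrank (ZMod p) (LinearMap.range (P.locAll (dualTw P.χ ρ))) =
            finrank (ZMod p) (P.Loc1 ρ) →
        (∀ t, (∀ x, P.pairLoc ρ (P.locAll ρ x) t = 0) →
            t ∈ LinearMap.range (P.locAll (dualTw P.χ ρ))) ∧
          ∀ t, (∀ y, P.pairLoc ρ t (P.locAll (dualTw P.χ ρ) y) = 0) →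
            t ∈ LinearMap.range (P.locAll ρ)) := by
  have hleft := P.pairLoc_left ρ hl
  have hright := P.pairLoc_right ρ hl'
  have horth : ∀ u ∈ LinearMap.range (P.locAll ρ),
      ∀ w ∈ LinearMap.range (P.locAll (dualTw P.χ ρ)), P.pairLoc ρ u w = 0 := by
    rintro _ ⟨x, rfl⟩ _ ⟨y, rfl⟩
    exact P.pairLoc_locAll ρ hrec x y
  have h1 := annihilator_of_finrank hleft hright _ _ horth
  have h2 := annihilator_of_finrank (T := (P.pairLoc ρ).flip) (fun v hv => hright v hv)
    (fun w hw => hleft w hw) _ _ fun u hu w hw => horth w hw u hu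
  refine ⟨h1.1, fun heq => ⟨fun t ht => h1.2 heq t ?_, fun t ht => h2.2 ?_ t ?_⟩⟩
  · rintro _ ⟨x, rfl⟩
    exact ht x
  · rw [add_comm, heq]
    exact finrank_eq_of_nondeg hleft hright
  · rintro _ ⟨y, rfl⟩
    exact ht y

end Datum

end

end FermatAgent.Duality
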