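import Fermat.Agent.Duality.PT.Local
import Fermat.Agent.Duality.Core.Orbit

/-!
# A global group with finitely many local groups

`G` plays `G_{K,S}`, `N` the group of a splitting field, `D i` the decomposition groups at the places
in `S` and `inv i` the local invariant maps on `H²(D i, k(χ))`. The orbit formula computes the
localisation of a corestriction.
-/

set_option autoImplicit false

namespace FermatAgent.Duality

open Module

noncomputable section

section Generic

variable {k G : Type*} [CommRing k] [Group G] {M : Type*} [AddCommGroup M] [Module k M]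
  (ρ : Representation k G M)

lemma cores2_congr_subgroup (L : LevelSystem G) {U U' : Subgroup G} [hi : Fintype (G ⧸ U)]
    [hi' : Fintype (G ⧸ U')] (h : U = U') (hU : ∃ V ∈ L.lev, V ≤ U) (hU' : ∃ V ∈ L.lev, V ≤ U')
    (hl : IsLevHom (L.comap U'.subtype) (L.comap U.subtype) (Subgroup.inclusion h.ge))
    (x : H2c (L.comap U.subtype) (ρ.comp U.subtype)) :
    cores2 U ρ L hU x = cores2 U' ρ L hU'
      (map2 (φ := LinearMap.id) (ρ.comp U.subtype) (ρ.comp U'.subtype) hl (fun _ _ => rfl) x) := by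
  subst h
  obtain rfl : hi = hi' := Subsingleton.elim _ _
  induction x using Submodule.Quotient.induction_on with | _ z => rfl

/-- Corestriction commutes with a change of level systems. -/
lemma map2_cores2 (L L' : LevelSystem G) (U : Subgroup G) [Fintype (G ⧸ U)]
    (hU : ∃ V ∈ L.lev, V ≤ U) (hU' : ∃ V ∈ L'.lev, V ≤ U) (h : IsLevHom L' L (MonoidHom.id G))
    (h' : IsLevHom (L'.comap U.subtype) (L.comap U.subtype) (MonoidHom.id U))
    (x : H2c (L.comap U.subtype) (ρ.comp U.subtype)) :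
    map2 (φ := LinearMap.id) ρ ρ h (fun _ _ => rfl) (cores2 U ρ L hU x) =
      cores2 U ρ L' hU'
        (map2 (φ := LinearMap.id) (ρ.comp U.subtype) (ρ.comp U.subtype) h' (fun _ _ => rfl) x) := by
  induction x using Submodule.Quotient.induction_on with | _ z => rfl

end Generic

/-- A global group with a normal subgroup and finitely many local groups. -/
structure Datum (p : ℕ) [Fact p.Prime] (G : Type) [Group G] : Type 1 where
  L : LevelSystem G
  N : Subgroup G
  [normal : N.Normal]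
  [fintypeQuot : Fintype (G ⧸ N)]
  level_le : ∃ V ∈ L.lev, V ≤ N
  χ : G →* (ZMod p)ˣ
  χ_triv : ∀ n ∈ N, χ n = 1
  ι : Type
  [fintypeι : Fintype ι]
  D : ι → Subgroup G
  locLev : ∀ i, LevelSystem (D i)
  isLevHom : ∀ i, IsLevHom (locLev i) L (D i).subtype
  inv : ∀ i, H2c (locLev i) ((cyc χ).comp (D i).subtype) →ₗ[ZMod p] ZMod p

attribute [instance] Datum.normal Datum.fintypeQuot Datum.fintypeι

namespace Datum

variable {p : ℕ} [Fact p.Prime] {G : Type} [Group G] (P : Datum p G)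

/-- The local part of `N`. -/
abbrev Ni (i : P.ι) : Subgroup (P.D i) := P.N.subgroupOf (P.D i)

instance (i : P.ι) : Fintype (P.D i ⧸ P.Ni i) := by
  have : P.N.FiniteIndex := Subgroup.finiteIndex_of_finite_quotient
  exact Subgroup.fintypeQuotientOfFiniteIndex

lemma loc_level_le (i : P.ι) : ∃ V ∈ (P.locLev i).lev, V ≤ P.Ni i := by
  obtain ⟨V, hV, hle⟩ := P.level_le
  obtain ⟨W, hW, hle'⟩ := P.isLevHom i V hV
  exact ⟨W, hW, fun d hd => hle (hle' hd)⟩

lemma χ_triv_loc (i : P.ι) : ∀ n ∈ P.Ni i, P.χ.comp (P.D i).subtype n = 1 :=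
  fun _ hn => P.χ_triv _ hn

/-- The classes of the places of the splitting field over `i`. -/
abbrev Cosets (i : P.ι) : Type := G ⧸ (P.D i ⊔ P.N)

instance (i : P.ι) : Fintype (P.Cosets i) := by
  have : P.N.FiniteIndex := Subgroup.finiteIndex_of_finite_quotient
  have : (P.D i ⊔ P.N).FiniteIndex := Subgroup.finiteIndex_of_le le_sup_right
  exact Subgroup.fintypeQuotientOfFiniteIndex

/-- The places of the splitting field. -/
abbrev W : Type := Σ i, P.Cosets i

/-- The representative of a class. -/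
def sec {i : P.ι} (c : P.Cosets i) : G := coresSec (P.D i ⊔ P.N) c

lemma exists_decomp {i : P.ι} {x : G} (hx : x ∈ P.D i ⊔ P.N) :
    ∃ d ∈ P.D i, ∃ n ∈ P.N, x = d * n := by
  rw [← SetLike.mem_coe, Subgroup.mul_normal] at hx
  obtain ⟨d, hd, n, hn, rfl⟩ := Set.mem_mul.mp hx
  exact ⟨d, hd, n, hn, rfl⟩

lemma exists_sec_mk {i : P.ι} (g : G) :
    ∃ d ∈ P.D i, ∃ n ∈ P.N, P.sec (QuotientGroup.mk g : P.Cosets i) = g * d * n := by
  obtain ⟨d, hd, n, hn, e⟩ := P.exists_decomp (i := i) (x := g⁻¹ * P.sec (QuotientGroup.mk g :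
    P.Cosets i)) (by rw [← QuotientGroup.eq, sec, mk_coresSec])
  exact ⟨d, hd, n, hn, by rw [mul_assoc, ← e, mul_inv_cancel_left]⟩

/-- The representatives of the orbits of `D i` on `G ⧸ N`. -/
def orbitReps (i : P.ι) : OrbitReps P.N (P.D i) (P.Cosets i) where
  rep c := (P.sec c)⁻¹
  exhausts := by
    intro x
    obtain ⟨g, rfl⟩ := QuotientGroup.mk_surjective x
    obtain ⟨d, hd, n, hn, e⟩ := P.exists_sec_mk (i := i) g⁻¹
    refine ⟨QuotientGroup.mk g⁻¹, d, hd, ?_⟩
    rw [e, QuotientGroup.eq]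
    have := (inferInstance : P.N.Normal).conj_mem _ (P.N.inv_mem hn) (g⁻¹ * d)
    simpa [mul_assoc] using this
  inj := by
    intro c c' d hd h
    rw [QuotientGroup.eq] at h
    rw [← mk_coresSec _ c, ← mk_coresSec _ c', QuotientGroup.eq]
    have h1 := (inferInstance : P.N.Normal).conj_mem _ (P.N.inv_mem h) (P.sec c)⁻¹
    have h2 := Subgroup.mul_mem_sup h1 (P.D i |>.inv_mem hd)
    rw [sup_comm] at h2
    convert h2 using 1
    simp [sec]
    group

variable {M : Type} [AddCommGroup M] [Module (ZMod p) M] (ρ : Representation (ZMod p) G M)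

/-- Localisation in degree `2`. -/
def loc2 (i : P.ι) : H2c P.L ρ →ₗ[ZMod p] H2c (P.locLev i) (ρ.comp (P.D i).subtype) :=
  map2 (φ := LinearMap.id) ρ _ (P.isLevHom i) (fun _ _ => rfl)

/-- Localisation in degree `1`. -/
def loc1 (i : P.ι) : H1c P.L ρ →ₗ[ZMod p] H1c (P.locLev i) (ρ.comp (P.D i).subtype) :=
  map1 (φ := LinearMap.id) ρ _ (P.isLevHom i) (fun _ _ => rfl)

/-- The inclusion of the local part of `N`. -/
def inclN (i : P.ι) : P.Ni i →* P.N where
  toFun n := ⟨((n : P.D i) : G), n.2⟩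
  map_one' := rfl
  map_mul' _ _ := rfl

lemma isLevHom_inclN (i : P.ι) :
    IsLevHom ((P.locLev i).comap (P.Ni i).subtype) (P.L.comap P.N.subtype) (P.inclN i) := by
  rintro _ ⟨U, hU, rfl⟩
  obtain ⟨V, hV, hle⟩ := P.isLevHom i U hU
  exact ⟨_, ⟨V, hV, rfl⟩, fun n hn => hle hn⟩

/-- Conjugate and restrict to the local part of `N`. -/
def locN (w : P.W) : H2c (P.L.comap P.N.subtype) (ρ.comp P.N.subtype) →ₗ[ZMod p]
    H2c ((P.locLev w.1).comap (P.Ni w.1).subtype) ((ρ.comp (P.D w.1).subtype).comp (P.Ni w.1).subtype) :=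
  map2 (φ := LinearMap.id) _ _ (P.isLevHom_inclN w.1) (fun _ _ => rfl) ∘ₗ
    conj2 P.L ρ P.N (P.sec w.2)⁻¹

/-- Conjugate and restrict to the local part of `N`, in degree `1`. -/
def locN1 (w : P.W) : H1c (P.L.comap P.N.subtype) (ρ.comp P.N.subtype) →ₗ[ZMod p]
    H1c ((P.locLev w.1).comap (P.Ni w.1).subtype) ((ρ.comp (P.D w.1).subtype).comp (P.Ni w.1).subtype) :=
  map1 (φ := LinearMap.id) _ _ (P.isLevHom_inclN w.1) (fun _ _ => rfl) ∘ₗ
    conj1 P.L ρ P.N (P.sec w.2)⁻¹

lemma stab_eq (i : P.ι) (c : P.Cosets i) : (P.orbitReps i).stab c = P.Ni i := by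
  ext d
  rw [OrbitReps.mem_stab, Subgroup.mem_subgroupOf]
  constructor
  · intro h
    simpa [mul_assoc] using
      (inferInstance : P.N.Normal).conj_mem _ h ((P.orbitReps i).rep c)
  · intro h
    simpa [mul_assoc] using
      (inferInstance : P.N.Normal).conj_mem _ h ((P.orbitReps i).rep c)⁻¹

/-- Localisation of a corestriction. -/
theorem loc2_cores2 (i : P.ι) (y : H2c (P.L.comap P.N.subtype) (ρ.comp P.N.subtype)) :
    P.loc2 ρ i (cores2 P.N ρ P.L P.level_le y) =
      ∑ c : P.Cosets i, cores2 (P.Ni i) (ρ.comp (P.D i).subtype) (P.locLev i) (P.loc_level_le i)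
        (P.locN ρ ⟨i, c⟩ y) := by
  let : ∀ j, Fintype (P.D i ⧸ (P.orbitReps i).stab j) := fun j => by
    rw [P.stab_eq i j]; infer_instance
  have hl : IsLevHom (P.locLev i) (P.L.comap (P.D i).subtype) (MonoidHom.id _) := by
    rintro _ ⟨U, hU, rfl⟩
    obtain ⟨V, hV, hle⟩ := P.isLevHom i U hU
    exact ⟨V, hV, fun d hd => hle hd⟩
  have e : P.loc2 ρ i (cores2 P.N ρ P.L P.level_le y) =
      map2 (φ := LinearMap.id) (ρ.comp (P.D i).subtype) (ρ.comp (P.D i).subtype) hl
        (fun _ _ => rfl)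
        (res2 P.L ρ (P.D i) (cores2 P.N ρ P.L P.level_le y)) := by
    generalize cores2 P.N ρ P.L P.level_le y = x
    induction x using Submodule.Quotient.induction_on with | _ z => rfl
  rw [e, (P.orbitReps i).res2_cores2 ρ P.L P.level_le y, map_sum]
  refine Finset.sum_congr rfl fun c _ => ?_
  have hst := P.stab_eq i c
  obtain ⟨V, hV, hle⟩ := P.loc_level_le i
  have hl' : IsLevHom ((P.L.comap (P.D i).subtype).comap (P.Ni i).subtype)
      ((P.L.comap (P.D i).subtype).comap ((P.orbitReps i).stab c).subtype)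
      (Subgroup.inclusion hst.ge) := by
    rintro _ ⟨U, hU, rfl⟩
    exact ⟨_, ⟨U, hU, rfl⟩, fun d hd => hd⟩
  have hN : ∃ V ∈ (P.L.comap (P.D i).subtype).lev, V ≤ P.Ni i := by
    obtain ⟨V, hV, hle⟩ := P.level_le
    exact ⟨_, ⟨V, hV, rfl⟩, fun d hd => hle hd⟩
  have hl'' : IsLevHom ((P.locLev i).comap (P.Ni i).subtype)
      ((P.L.comap (P.D i).subtype).comap (P.Ni i).subtype) (MonoidHom.id _) := by
    rintro _ ⟨U, hU, rfl⟩
    obtain ⟨V, hV, hle⟩ := hl U hU
    exact ⟨_, ⟨V, hV, rfl⟩, fun d hd => hle hd⟩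
  rw [cores2_congr_subgroup _ _ hst _ hN hl', map2_cores2 _ _ _ _ hN (P.loc_level_le i) hl hl'']
  refine congrArg _ ?_
  induction y using Submodule.Quotient.induction_on with
  | _ z =>
    refine congrArg (cl2 ((P.locLev i).comap (P.Ni i).subtype)
      ((ρ.comp (P.D i).subtype).comp (P.Ni i).subtype)) (Subtype.ext (funext fun q => ?_))
    show ρ ((P.orbitReps i).rep c) (z.1 ((P.orbitReps i).conjHom c _, (P.orbitReps i).conjHom c _)) =
      ρ (P.sec c)⁻¹ (z.1 (conjInv P.N (P.sec c)⁻¹ _, conjInv P.N (P.sec c)⁻¹ _))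
    refine congrArg _ (congrArg z.1 (Prod.ext (Subtype.ext ?_) (Subtype.ext ?_))) <;>
      · rw [OrbitReps.coe_conjHom]
        rfl

end Datum

end

end FermatAgent.Duality
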