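import Fermat.Agent.Duality.PT.Datum

/-!
# Classes of degree two of the splitting field as families of vectors indexed by its places
-/

set_option autoImplicit false

namespace FermatAgent.Duality

open Module

noncomputable section

namespace Datum

variable {p : ℕ} [Fact p.Prime] {G : Type} [Group G] (P : Datum p G)

/-- The invariant at a place of the splitting field. -/
def theta (w : P.W) :
    H2c (P.L.comap P.N.subtype) ((cyc P.χ).comp P.N.subtype) →ₗ[ZMod p] ZMod p :=
  invCores (P.locLev w.1) (P.Ni w.1) (P.loc_level_le w.1) (P.χ.comp (P.D w.1).subtype) (P.inv w.1)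
    ∘ₗ P.locN (cyc P.χ) w

/-- The properties making a datum satisfy duality. -/
structure Valid : Prop where
  rightExact : RightExact2 p P.L P.N
  loc_rightExact : ∀ i, RightExact2 p (P.locLev i) (P.Ni i)
  invCores_bijective : ∀ i, Function.Bijective
    (invCores (P.locLev i) (P.Ni i) (P.loc_level_le i) (P.χ.comp (P.D i).subtype) (P.inv i))
  reciprocity : ∀ x : H2c P.L (cyc P.χ), ∑ i, P.inv i (P.loc2 (cyc P.χ) i x) = 0
  theta_injective : ∀ y, (∀ w, P.theta w y = 0) → y = 0
  theta_surjective : ∀ t : P.W → ZMod p, ∑ w, t w = 0 → ∃ y, ∀ w, P.theta w y = t w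
  locN1_injective : ∀ x, (∀ w, P.locN1 (cyc P.χ) w x = 0) → x = 0
  nonempty : Nonempty P.ι

/-- The invariants at the places of the splitting field of a global class sum to zero. -/
lemma sum_theta_of_reciprocity
    (hrec : ∀ x : H2c P.L (cyc P.χ), ∑ i, P.inv i (P.loc2 (cyc P.χ) i x) = 0)
    (y : H2c (P.L.comap P.N.subtype) ((cyc P.χ).comp P.N.subtype)) :
    ∑ w, P.theta w y = 0 := by
  rw [← hrec (cores2 P.N (cyc P.χ) P.L P.level_le y), Fintype.sum_sigma]
  refine Finset.sum_congr rfl fun i _ => ?_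
  rw [P.loc2_cores2 (cyc P.χ) i y, map_sum]
  rfl

variable {P}

lemma Valid.sum_theta (hP : P.Valid)
    (y : H2c (P.L.comap P.N.subtype) ((cyc P.χ).comp P.N.subtype)) :
    ∑ w, P.theta w y = 0 :=
  P.sum_theta_of_reciprocity hP.reciprocity y

variable (P)
variable {M : Type} [AddCommGroup M] [Module (ZMod p) M] (ρ : Representation (ZMod p) G M)

/-- The twisted action. -/
abbrev twAct : Representation (ZMod p) G M := ρ.twist P.χ⁻¹

/-- The twisted action on families indexed by the places of the splitting field. -/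
def famRep : Representation (ZMod p) G (P.W → M) where
  toFun g :=
    { toFun := fun t w => P.twAct ρ g (t ⟨w.1, g⁻¹ • w.2⟩)
      map_add' := fun a b => funext fun w => map_add _ _ _
      map_smul' := fun r a => funext fun w => map_smul _ _ _ }
  map_one' := by ext t ⟨i, c⟩; simp
  map_mul' g h := by
    ext t ⟨i, c⟩
    simp only [LinearMap.coe_mk, AddHom.coe_mk, map_mul, Module.End.mul_apply, mul_inv_rev,
      mul_smul]

lemma famRep_apply (g : G) (t : P.W → M) (w : P.W) :
    P.famRep ρ g t w = P.twAct ρ g (t ⟨w.1, g⁻¹ • w.2⟩) := rfl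

variable (hρ : TrivialOn P.N ρ) [FiniteDimensional (ZMod p) M]

include hρ in
omit [FiniteDimensional (ZMod p) M] in
lemma trivialOn_loc (i : P.ι) : TrivialOn (P.Ni i) (ρ.comp (P.D i).subtype) :=
  fun _ hd m => hρ _ hd m

include hρ in
omit [FiniteDimensional (ZMod p) M] in
lemma twAct_of_mem {n : G} (hn : n ∈ P.N) (m : M) : P.twAct ρ n m = m := by
  rw [Representation.twist_apply_apply, MonoidHom.inv_apply, P.χ_triv n hn, inv_one, Units.val_one,
    one_smul, hρ n hn]

/-- The local coordinate at a place of the splitting field. -/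
def valLoc (w : P.W) : H2c (P.L.comap P.N.subtype) (ρ.comp P.N.subtype) →ₗ[ZMod p] M :=
  valN (P.locLev w.1) (P.Ni w.1) (P.loc_level_le w.1) (P.χ.comp (P.D w.1).subtype) (P.inv w.1)
    (P.χ_triv_loc w.1) (P.trivialOn_loc ρ hρ w.1) ∘ₗ P.locN ρ w

/-- The family attached to a class of degree two of `N`. -/
def fam : H2c (P.L.comap P.N.subtype) (ρ.comp P.N.subtype) →ₗ[ZMod p] (P.W → M) :=
  LinearMap.pi fun w => P.twAct ρ (P.sec w.2) ∘ₗ P.valLoc ρ hρ w

lemma fam_apply (y : H2c (P.L.comap P.N.subtype) (ρ.comp P.N.subtype)) (w : P.W) :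
    P.fam ρ hρ y w = P.twAct ρ (P.sec w.2) (P.valLoc ρ hρ w y) := rfl

lemma apply_fam (y : H2c (P.L.comap P.N.subtype) (ρ.comp P.N.subtype)) (w : P.W)
    (f : Dual (ZMod p) M) :
    f (P.fam ρ hρ y w) = P.theta w (map2 (ρ.comp P.N.subtype) ((cyc P.χ).comp P.N.subtype)
      (isLevHom_id _) (isEquivariant_of_trivial (trivial_of_trivialOn P.N hρ)
        (cyc_trivial P.N P.χ P.χ_triv) f) y) := by
  rw [fam_apply, valLoc, LinearMap.comp_apply]
  set s := P.sec w.2
  rw [show f (P.twAct ρ s (valN (P.locLev w.1) (P.Ni w.1) (P.loc_level_le w.1)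
      (P.χ.comp (P.D w.1).subtype) (P.inv w.1) (P.χ_triv_loc w.1) (P.trivialOn_loc ρ hρ w.1)
      (P.locN ρ w y))) = (f ∘ₗ P.twAct ρ s) (valN (P.locLev w.1) (P.Ni w.1) (P.loc_level_le w.1)
      (P.χ.comp (P.D w.1).subtype) (P.inv w.1) (P.χ_triv_loc w.1) (P.trivialOn_loc ρ hρ w.1)
      (P.locN ρ w y)) from rfl]
  refine (apply_valN _ _ _ _ _ _ _ _ _).trans ?_
  refine congrArg (invCores (P.locLev w.1) (P.Ni w.1) (P.loc_level_le w.1)
    (P.χ.comp (P.D w.1).subtype) (P.inv w.1)) ?_
  induction y using Submodule.Quotient.induction_on with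
  | _ z =>
    refine congrArg (cl2 ((P.locLev w.1).comap (P.Ni w.1).subtype)
      (((cyc P.χ).comp (P.D w.1).subtype).comp (P.Ni w.1).subtype))
      (Subtype.ext (funext fun q => ?_))
    show f (P.twAct ρ s (ρ s⁻¹ (z.1 _))) = (P.χ s⁻¹ : ZMod p) * f (z.1 _)
    rw [Representation.twist_apply_apply, MonoidHom.inv_apply, ← Module.End.mul_apply, ← map_mul,
      mul_inv_cancel, map_one, Module.End.one_apply, map_smul, smul_eq_mul, map_inv]
    rfl

lemma fam_conj2 (g : G) (y : H2c (P.L.comap P.N.subtype) (ρ.comp P.N.subtype)) :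
    P.fam ρ hρ (conj2 P.L ρ P.N g y) = P.famRep ρ g (P.fam ρ hρ y) := by
  refine funext fun w => ?_
  obtain ⟨i, c⟩ := w
  rw [famRep_apply, fam_apply, fam_apply]
  set s := P.sec c
  set s' := P.sec (g⁻¹ • c) with hs'
  obtain ⟨d, hd, n, hn, e⟩ := P.exists_decomp (i := i) (x := s⁻¹ * g * s') (by
    rw [mul_assoc, ← QuotientGroup.eq, hs']
    simp only [s, sec]
    rw [mk_coresSec, ← smul_eq_mul g, ← MulAction.Quotient.smul_mk, mk_coresSec, smul_inv_smul])
  have e' : s * d = g * s' * n⁻¹ := by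
    rw [show g * s' = s * (s⁻¹ * g * s') by group, e]; group
  have key : P.valLoc ρ hρ ⟨i, c⟩ (conj2 P.L ρ P.N g y) =
      P.twAct ρ d (P.valLoc ρ hρ ⟨i, g⁻¹ • c⟩ y) := by
    have h := valN_conj2 (P.locLev i) (P.Ni i) (P.loc_level_le i) (P.χ.comp (P.D i).subtype)
      (P.inv i) (P.χ_triv_loc i) (P.trivialOn_loc ρ hρ i) ⟨d, hd⟩ (P.locN ρ ⟨i, g⁻¹ • c⟩ y)
    refine Eq.trans ?_ h
    rw [valLoc, LinearMap.comp_apply]
    refine congrArg _ ?_
    simp only [locN, LinearMap.comp_apply]
    rw [conj2_conj2, show (P.sec c)⁻¹ * g = d * (n * s'⁻¹) by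
      rw [show (P.sec c)⁻¹ * g = s⁻¹ * g * s' * s'⁻¹ by simp [s], e]; group]
    rw [← conj2_conj2, ← conj2_conj2, conj2_of_mem P.L ρ P.N hn]
    generalize conj2 P.L ρ P.N s'⁻¹ y = x
    induction x using Submodule.Quotient.induction_on with | _ z => rfl
  rw [key]
  show P.twAct ρ s (P.twAct ρ d _) = P.twAct ρ g (P.twAct ρ s' _)
  rw [← Module.End.mul_apply, ← Module.End.mul_apply, ← map_mul, ← map_mul, e']
  simp only [map_mul, Module.End.mul_apply, P.twAct_of_mem ρ hρ (P.N.inv_mem hn)]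

lemma sum_fam (hP : P.Valid) (y : H2c (P.L.comap P.N.subtype) (ρ.comp P.N.subtype)) :
    ∑ w, P.fam ρ hρ y w = 0 := by
  refine (Module.evalEquiv (ZMod p) M).injective (LinearMap.ext fun f => ?_)
  show f _ = f 0
  rw [map_sum, map_zero]
  simp only [apply_fam]
  exact hP.sum_theta _

lemma fam_injective (hP : P.Valid) : Function.Injective (P.fam ρ hρ) := by
  rw [← LinearMap.ker_eq_bot]
  refine (Submodule.eq_bot_iff _).mpr fun y hy => ?_
  rw [LinearMap.mem_ker] at hy
  rw [eq_sum_coord (trivial_of_trivialOn P.N hρ) (cyc_trivial P.N P.χ P.χ_triv)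
    (Module.finBasis (ZMod p) M) y]
  refine Finset.sum_eq_zero fun i _ => ?_
  refine (congrArg _ (hP.theta_injective _ fun w => ?_)).trans (map_zero _)
  rw [← P.apply_fam ρ hρ, hy]
  exact map_zero _

lemma range_fam (hP : P.Valid) :
    LinearMap.range (P.fam ρ hρ) = LinearMap.ker (∑ w, LinearMap.proj w : (P.W → M) →ₗ[ZMod p] M) := by
  classical
  refine le_antisymm ?_ fun t ht => ?_
  · rintro _ ⟨y, rfl⟩
    simpa using P.sum_fam ρ hρ hP y
  rw [LinearMap.mem_ker, LinearMap.sum_apply] at ht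
  simp only [LinearMap.proj_apply] at ht
  let b := Module.finBasis (ZMod p) M
  have hy : ∀ j, ∃ y, ∀ w, P.theta w y = b.coord j (t w) := fun j =>
    hP.theta_surjective (fun w => b.coord j (t w)) (by rw [← map_sum, ht, map_zero])
  choose y hy using hy
  refine ⟨∑ j, map2 _ _ (isLevHom_id _) (isEquivariant_toSpanSingleton
    (trivial_of_trivialOn P.N hρ) (cyc_trivial P.N P.χ P.χ_triv) (b j)) (y j), funext fun w => ?_⟩
  refine (Module.evalEquiv (ZMod p) M).injective (LinearMap.ext fun f => ?_)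
  show f _ = f _
  rw [map_sum, Finset.sum_apply, map_sum]
  conv_rhs => rw [← b.sum_repr (t w), map_sum]
  refine Finset.sum_congr rfl fun j _ => ?_
  rw [apply_fam, map2_map2, map_smul, smul_eq_mul]
  have : map2 _ _ ((isLevHom_id (P.L.comap P.N.subtype)).trans (isLevHom_id _))
      ((isEquivariant_toSpanSingleton (trivial_of_trivialOn P.N hρ) (cyc_trivial P.N P.χ P.χ_triv)
        (b j)).trans (isEquivariant_of_trivial (trivial_of_trivialOn P.N hρ)
        (cyc_trivial P.N P.χ P.χ_triv) f)) (y j) = f (b j) • y j := by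
    induction y j using Submodule.Quotient.induction_on with
    | _ z =>
      refine congrArg (cl2 (P.L.comap P.N.subtype) ((cyc P.χ).comp P.N.subtype))
        (Subtype.ext (funext fun q => ?_))
      show f (z.1 q • b j) = f (b j) * z.1 q
      rw [map_smul, smul_eq_mul, mul_comm]
  rw [this, map_smul, hy, smul_eq_mul, mul_comm, Basis.coord_apply]

end Datum

end

end FermatAgent.Duality
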