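import Fermat.Agent.Duality.PT.Families

/-!
# The kernel and the image of localisation in degree `2`

The locally trivial classes in degree `2` of `M` have the dimension of the locally trivial classes
in degree `1` of the twisted dual `M'`, and `h²(M) + h⁰(M') = dim Ш¹(M') + ∑ h⁰_v(M')`.
-/

set_option autoImplicit false

namespace FermatAgent.Duality

open Module

noncomputable section

namespace Datum

variable {p : ℕ} [Fact p.Prime] {G : Type} [Group G] (P : Datum p G)
variable {M : Type} [AddCommGroup M] [Module (ZMod p) M] (ρ : Representation (ZMod p) G M)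

/-- Classes in degree `1` trivial at every place. -/
def sha1 : Submodule (ZMod p) (H1c P.L ρ) := LinearMap.ker (LinearMap.pi fun i => P.loc1 ρ i)

/-- Classes in degree `2` trivial at every place. -/
def sha2 : Submodule (ZMod p) (H2c P.L ρ) := LinearMap.ker (LinearMap.pi fun i => P.loc2 ρ i)

lemma mem_sha1 {x : H1c P.L ρ} : x ∈ P.sha1 ρ ↔ ∀ i, P.loc1 ρ i x = 0 :=
  LinearMap.mem_ker.trans funext_iff

lemma mem_sha2 {x : H2c P.L ρ} : x ∈ P.sha2 ρ ↔ ∀ i, P.loc2 ρ i x = 0 :=
  LinearMap.mem_ker.trans funext_iff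

/-- The sum of a family. -/
def famSum : (P.W → M) →ₗ[ZMod p] M := ∑ w, LinearMap.proj w

lemma famSum_apply (t : P.W → M) : P.famSum t = ∑ w, t w := by simp [famSum, LinearMap.sum_apply]

/-- The component at a place of a functional on families. -/
def comp (w : P.W) : Dual (ZMod p) (P.W → M) →ₗ[ZMod p] Dual (ZMod p) M :=
  letI := Classical.decEq P.W
  (LinearMap.single (ZMod p) (fun _ => M) w).dualMap

lemma comp_apply [DecidableEq P.W] (w : P.W) (φ : Dual (ZMod p) (P.W → M)) (m : M) :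
    P.comp w φ m = φ (Pi.single w m) := by
  rw [comp, LinearMap.dualMap_apply, LinearMap.coe_single]
  congr!

lemma eq_of_comp {φ ψ : Dual (ZMod p) (P.W → M)} (h : ∀ w, P.comp w φ = P.comp w ψ) : φ = ψ := by
  classical
  refine LinearMap.pi_ext fun w m => ?_
  rw [← P.comp_apply, ← P.comp_apply, h]

lemma comp_const (m' : Dual (ZMod p) M) (w : P.W) : P.comp w ((P.famSum).dualMap m') = m' := by
  classical
  ext m
  rw [comp_apply, LinearMap.dualMap_apply, famSum_apply, Finset.sum_pi_single']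
  simp

lemma famSum_surjective [Nonempty P.W] : Function.Surjective (P.famSum (M := M)) := fun m => by
  classical
  exact ⟨Pi.single (Classical.arbitrary P.W) m, by rw [famSum_apply, Finset.sum_pi_single']; simp⟩

/-- The action on functionals on families. -/
abbrev dualFamRep : Representation (ZMod p) G (Dual (ZMod p) (P.W → M)) := (P.famRep ρ).dual

lemma comp_dualFamRep (g : G) (φ : Dual (ZMod p) (P.W → M)) (w : P.W) :
    P.comp w (P.dualFamRep ρ g φ) = dualTw P.χ ρ g (P.comp ⟨w.1, g⁻¹ • w.2⟩ φ) := by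
  classical
  refine LinearMap.ext fun m => ?_
  rw [comp_apply, dualTw_apply, comp_apply]
  show φ (P.famRep ρ g⁻¹ (Pi.single w m)) = _
  rw [← smul_eq_mul (α := ZMod p), ← map_smul]
  refine congrArg φ (funext fun v => ?_)
  rw [famRep_apply, inv_inv, Pi.smul_apply]
  obtain ⟨i, c⟩ := w
  obtain ⟨j, c'⟩ := v
  by_cases hij : (⟨j, c'⟩ : P.W) = ⟨i, g⁻¹ • c⟩
  · obtain ⟨rfl, h⟩ := Sigma.mk.injEq .. ▸ hij
    obtain rfl := eq_of_heq h
    rw [smul_inv_smul, Pi.single_eq_same, Pi.single_eq_same, Representation.twist_apply_apply,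
      MonoidHom.inv_apply, map_inv, inv_inv]
  · rw [Pi.single_eq_of_ne hij, smul_zero, Pi.single_eq_of_ne, map_zero]
    rintro h
    obtain ⟨rfl, h'⟩ := Sigma.mk.injEq .. ▸ h
    exact hij (by rw [← eq_of_heq h', inv_smul_smul])

lemma dualFamRep_const (g : G) (m' : Dual (ZMod p) M) :
    P.dualFamRep ρ g ((P.famSum).dualMap m') = (P.famSum).dualMap (dualTw P.χ ρ g m') :=
  P.eq_of_comp fun w => by rw [comp_dualFamRep, comp_const, comp_const]

/-- The sum-zero families. -/
def zeroSum : Submodule (ZMod p) (P.W → M) := LinearMap.ker P.famSum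

/-- The span of the `g t - t`. -/
def famAug : Submodule (ZMod p) (P.W → M) :=
  ⨆ g : G, (P.zeroSum (M := M)).map (P.famRep ρ g - LinearMap.id)

/-- Families of local invariants of the dual, as functionals on families. -/
def invFun : (∀ i, (dualTw (P.χ.comp (P.D i).subtype) (ρ.comp (P.D i).subtype)).invariants)
    →ₗ[ZMod p] Dual (ZMod p) (P.W → M) :=
  LinearMap.mk₂ (ZMod p)
    (fun f (t : P.W → M) => ∑ w, dualTw P.χ ρ (P.sec w.2) (f w.1).1 (t w))
    (fun a b t => by simp [Finset.sum_add_distrib, map_add])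
    (fun r a t => by simp [Finset.mul_sum, map_smul])
    (fun f a b => by simp [Finset.sum_add_distrib])
    (fun r f a => by simp [Finset.mul_sum, map_smul])

lemma invFun_apply (f) (t : P.W → M) :
    P.invFun ρ f t = ∑ w, dualTw P.χ ρ (P.sec w.2) (f w.1).1 (t w) := rfl

lemma comp_invFun (f) (w : P.W) :
    P.comp w (P.invFun ρ f) = dualTw P.χ ρ (P.sec w.2) (f w.1).1 := by
  classical
  ext m
  rw [comp_apply, invFun_apply, Finset.sum_eq_single w]
  · rw [Pi.single_eq_same]
  · intro v _ hv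
    rw [Pi.single_eq_of_ne hv, map_zero]
  · simp

/-- The functionals cutting out the locally trivial families. -/
def locFun : Submodule (ZMod p) (Dual (ZMod p) (P.W → M)) :=
  LinearMap.range (P.invFun ρ) ⊔ LinearMap.range (P.famSum (M := M)).dualMap

variable (hρ : TrivialOn P.N ρ)

include hρ in
lemma dualTw_of_mem {n : G} (hn : n ∈ P.N) (f : Dual (ZMod p) M) : dualTw P.χ ρ n f = f :=
  LinearMap.ext fun m => by
    rw [dualTw_apply, P.χ_triv n hn, hρ _ (P.N.inv_mem hn), Units.val_one, one_mul]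

lemma dualTw_D {i : P.ι} {d : G} (hd : d ∈ P.D i)
    (f : (dualTw (P.χ.comp (P.D i).subtype) (ρ.comp (P.D i).subtype)).invariants) :
    dualTw P.χ ρ d f.1 = f.1 := f.2 ⟨d, hd⟩

include hρ in
lemma dualTw_sup {i : P.ι} {x : G} (hx : x ∈ P.D i ⊔ P.N)
    (f : (dualTw (P.χ.comp (P.D i).subtype) (ρ.comp (P.D i).subtype)).invariants) :
    dualTw P.χ ρ x f.1 = f.1 := by
  obtain ⟨d, hd, n, hn, rfl⟩ := P.exists_decomp hx
  rw [map_mul, Module.End.mul_apply, P.dualTw_of_mem ρ hρ hn, P.dualTw_D ρ hd]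

include hρ in
/-- Functionals in the range of `invFun` are invariant. -/
lemma dualFamRep_invFun (f) (g : G) :
    P.dualFamRep ρ g (P.invFun ρ f) = P.invFun ρ f := by
  refine P.eq_of_comp fun w => ?_
  obtain ⟨i, c⟩ := w
  rw [comp_dualFamRep, comp_invFun, comp_invFun, ← Module.End.mul_apply, ← map_mul]
  have hmem : (P.sec c)⁻¹ * (g * P.sec (g⁻¹ • c)) ∈ P.D i ⊔ P.N := by
    rw [← QuotientGroup.eq]
    simp only [sec]
    rw [mk_coresSec, ← smul_eq_mul g, ← MulAction.Quotient.smul_mk, mk_coresSec, smul_inv_smul]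
  rw [show g * P.sec (g⁻¹ • c) = P.sec c * ((P.sec c)⁻¹ * (g * P.sec (g⁻¹ • c))) by group,
    map_mul, Module.End.mul_apply, P.dualTw_sup ρ hρ hmem]

lemma base_eq_smul {i : P.ι} (d : P.D i) :
    (⟨i, baseCoset _⟩ : P.W) = ⟨i, ((d : G))⁻¹ • baseCoset _⟩ := by
  refine congrArg (Sigma.mk i) ?_
  symm
  rw [inv_smul_eq_iff, smul_baseCoset, QuotientGroup.eq, inv_one, one_mul]
  exact Subgroup.mem_sup_left d.2

lemma sec_base_mem (i : P.ι) : P.sec (baseCoset (P.D i ⊔ P.N)) ∈ P.D i ⊔ P.N :=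
  coresSec_baseCoset_mem _

include hρ in
lemma invFun_injective : Function.Injective (P.invFun ρ) := by
  intro f f' h
  refine funext fun i => Subtype.ext ?_
  have h1 := congrArg (P.comp ⟨i, baseCoset _⟩) h
  rw [comp_invFun, comp_invFun, P.dualTw_sup ρ hρ (P.sec_base_mem i),
    P.dualTw_sup ρ hρ (P.sec_base_mem i)] at h1
  exact h1

-- `hρ` is unused here but kept so that callers see a uniform argument list.
set_option linter.unusedSectionVars false in
include hρ in
lemma mem_range_invFun {φ : Dual (ZMod p) (P.W → M)} (hφ : ∀ g, P.dualFamRep ρ g φ = φ) :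
    φ ∈ LinearMap.range (P.invFun ρ) := by
  refine ⟨fun i => ⟨P.comp ⟨i, baseCoset _⟩ φ, fun d => ?_⟩, P.eq_of_comp fun w => ?_⟩
  · show dualTw P.χ ρ (d : G) (P.comp ⟨i, baseCoset _⟩ φ) = _
    conv_rhs => rw [← hφ (d : G), comp_dualFamRep]
    rw [← P.base_eq_smul d]
  · obtain ⟨i, c⟩ := w
    rw [comp_invFun]
    conv_rhs => rw [← hφ (P.sec c), comp_dualFamRep]
    refine congrArg _ ?_
    show P.comp ⟨i, baseCoset (P.D i ⊔ P.N)⟩ φ = P.comp ⟨i, (P.sec c)⁻¹ • c⟩ φ
    rw [show (P.sec c)⁻¹ • c = baseCoset (P.D i ⊔ P.N) by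
      rw [inv_smul_eq_iff]; exact (coresSec_smul_baseCoset _ c).symm]

variable [FiniteDimensional (ZMod p) M] {P} (hP : P.Valid)

include hP in
lemma Valid.nonempty_W : Nonempty P.W := ⟨⟨hP.nonempty.some, baseCoset _⟩⟩

variable (P)

omit [FiniteDimensional (ZMod p) M] in
lemma dualAnnihilator_zeroSum :
    (P.zeroSum (M := M)).dualAnnihilator = LinearMap.range (P.famSum (M := M)).dualMap :=
  (LinearMap.range_dualMap_eq_dualAnnihilator_ker _).symm

omit [FiniteDimensional (ZMod p) M] in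
lemma mem_dualAnnihilator_famAug {φ : Dual (ZMod p) (P.W → M)} :
    φ ∈ (P.famAug ρ).dualAnnihilator ↔
      ∀ g, P.dualFamRep ρ g φ - φ ∈ LinearMap.range (P.famSum (M := M)).dualMap := by
  rw [famAug, Submodule.dualAnnihilator_iSup_eq, Submodule.mem_iInf]
  simp only [← P.dualAnnihilator_zeroSum, Submodule.mem_dualAnnihilator, Submodule.mem_map,
    forall_exists_index, and_imp, forall_apply_eq_imp_iff₂, LinearMap.sub_apply,
    LinearMap.id_apply, map_sub]
  constructor
  · intro h g t ht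
    rw [← h g⁻¹ t ht]
    rfl
  · intro h g t ht
    rw [← h g⁻¹ t ht]
    show _ = φ (P.famRep ρ g⁻¹⁻¹ t) - φ t
    rw [inv_inv]

/-- The cocycle attached to a functional invariant up to constants. -/
def cocFun [Nonempty P.W] (φ : Dual (ZMod p) (P.W → M)) (g : G) : Dual (ZMod p) M :=
  P.comp (Classical.arbitrary P.W) (P.dualFamRep ρ g φ - φ)

omit [FiniteDimensional (ZMod p) M] in
lemma const_cocFun [Nonempty P.W] {φ : Dual (ZMod p) (P.W → M)}
    (hφ : φ ∈ (P.famAug ρ).dualAnnihilator) (g : G) :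
    (P.famSum (M := M)).dualMap (P.cocFun ρ φ g) = P.dualFamRep ρ g φ - φ := by
  obtain ⟨m', hm'⟩ := (P.mem_dualAnnihilator_famAug ρ).mp hφ g
  rw [cocFun, ← hm', comp_const]

omit [FiniteDimensional (ZMod p) M] in
include hρ in
lemma famRep_of_mem {n : G} (hn : n ∈ P.N) : P.famRep ρ n = 1 :=
  LinearMap.ext fun t => funext fun w => by
    rw [famRep_apply, P.twAct_of_mem ρ hρ hn, Module.End.one_apply,
      smul_eq_of_mem_normal _ inferInstance le_sup_right (P.N.inv_mem hn)]

omit [FiniteDimensional (ZMod p) M] in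
include hρ in
lemma cocFun_mem_Z1 [Nonempty P.W] {φ : Dual (ZMod p) (P.W → M)}
    (hφ : φ ∈ (P.famAug ρ).dualAnnihilator) :
    P.cocFun ρ φ ∈ Z1 P.L (dualTw P.χ ρ) := by
  refine ⟨?_, fun g h => ?_⟩
  · obtain ⟨V, hV, hle⟩ := P.level_le
    refine ⟨V, hV, fun g n hn => ?_⟩
    rw [cocFun, cocFun, map_mul, Module.End.mul_apply]
    have : P.dualFamRep ρ n φ = φ := LinearMap.ext fun t => by
      show φ (P.famRep ρ n⁻¹ t) = φ t
      rw [P.famRep_of_mem ρ hρ (P.N.inv_mem (hle hn)), Module.End.one_apply]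
    rw [this]
  · refine LinearMap.dualMap_injective_of_surjective (P.famSum_surjective (M := M)) ?_
    rw [map_add, ← dualFamRep_const, P.const_cocFun ρ hφ, P.const_cocFun ρ hφ,
      P.const_cocFun ρ hφ, map_sub, map_mul, Module.End.mul_apply]
    abel

/-- The class attached to a functional invariant up to constants. -/
def cocMap [Nonempty P.W] :
    (P.famAug ρ).dualAnnihilator →ₗ[ZMod p] H1c P.L (dualTw P.χ ρ) :=
  cl1 P.L (dualTw P.χ ρ) ∘ₗ
    { toFun := fun φ => ⟨P.cocFun ρ φ.1, P.cocFun_mem_Z1 ρ hρ φ.2⟩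
      map_add' := fun a b => Subtype.ext (funext fun g => by
        simp only [cocFun, Submodule.coe_add, map_add, map_sub, Pi.add_apply]; abel)
      map_smul' := fun r a => Subtype.ext (funext fun g => by
        simp only [cocFun, Submodule.coe_smul, map_smul, map_sub, RingHom.id_apply, Pi.smul_apply,
          smul_sub]) }

omit [FiniteDimensional (ZMod p) M] in
include hP in
lemma range_cocMap [Nonempty P.W] :
    LinearMap.range (P.cocMap ρ hρ) = P.sha1 (dualTw P.χ ρ) := by
  classical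
  refine le_antisymm ?_ fun x hx => ?_
  · rintro _ ⟨φ, rfl⟩
    refine (P.mem_sha1 (dualTw P.χ ρ)).mpr fun i => (Submodule.Quotient.mk_eq_zero _).mpr
      ⟨P.comp ⟨i, baseCoset _⟩ φ.1, funext fun d => ?_⟩
    show dualTw P.χ ρ (d : G) (P.comp ⟨i, baseCoset _⟩ φ.1) - P.comp ⟨i, baseCoset _⟩ φ.1 =
      P.cocFun ρ φ.1 (d : G)
    have h := congrArg (P.comp ⟨i, baseCoset _⟩) (P.const_cocFun ρ φ.2 (d : G))
    rw [comp_const, map_sub, comp_dualFamRep] at h
    rw [h, ← P.base_eq_smul d]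
  · induction x using Submodule.Quotient.induction_on with
    | _ a =>
    rw [mem_sha1] at hx
    have hloc : ∀ i, ∃ m : Dual (ZMod p) M,
        ∀ d : P.D i, dualTw P.χ ρ (d : G) m - m = a.1 (d : G) := fun i => by
      obtain ⟨m, hm⟩ := (Submodule.Quotient.mk_eq_zero _).mp (hx i)
      exact ⟨m, fun d => congrFun hm d⟩
    choose m hm using hloc
    -- `a` vanishes on `N`
    have haN : ∀ n ∈ P.N, a.1 n = 0 := by
      intro n hn
      refine LinearMap.ext fun v => ?_
      have hev : IsEquivariant ((dualTw P.χ ρ).comp P.N.subtype) ((cyc P.χ).comp P.N.subtype)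
          (MonoidHom.id P.N) (LinearMap.applyₗ v) := fun u f => by
        show dualTw P.χ ρ (u : G) f v = (P.χ (u : G) : ZMod p) * f v
        rw [P.dualTw_of_mem ρ hρ u.2, P.χ_triv _ u.2, Units.val_one, one_mul]
      have h0 := hP.locN1_injective (map1 _ _ (isLevHom_id _) hev
        (res1 P.L (dualTw P.χ ρ) P.N (Submodule.Quotient.mk a))) fun w => by
        refine (Submodule.Quotient.mk_eq_zero _).mpr ⟨0, funext fun u => ?_⟩
        rw [map_zero, Pi.zero_apply]
        show (0 : ZMod p) = (P.χ (P.sec w.2)⁻¹ : ZMod p) *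
          a.1 ((P.sec w.2)⁻¹⁻¹ * ((u : P.D w.1) : G) * (P.sec w.2)⁻¹) v
        have hu : ((u : P.D w.1) : G) ∈ P.N := u.2
        have hau : a.1 ((u : P.D w.1) : G) = 0 := by
          rw [← hm, P.dualTw_of_mem ρ hρ hu, sub_self]
        have hconj : (P.sec w.2) * ((u : P.D w.1) : G) * (P.sec w.2)⁻¹ ∈ P.N :=
          (inferInstance : P.N.Normal).conj_mem _ hu _
        have e1 := a.2.2 (P.sec w.2 * ((u : P.D w.1) : G) * (P.sec w.2)⁻¹) (P.sec w.2)
        rw [inv_mul_cancel_right, a.2.2, hau, map_zero, zero_add,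
          P.dualTw_of_mem ρ hρ hconj, left_eq_add] at e1
        rw [inv_inv, e1, LinearMap.zero_apply, mul_zero]
      obtain ⟨r, hr⟩ := (Submodule.Quotient.mk_eq_zero _).mp h0
      have h2 := congrFun hr ⟨n, hn⟩
      show a.1 n v = 0
      rw [show a.1 n v = _ from h2.symm]
      show (P.χ n : ZMod p) * r - r = 0
      rw [P.χ_triv n hn, Units.val_one, one_mul, sub_self]
    let vec : P.W → Dual (ZMod p) M := fun w =>
      dualTw P.χ ρ (P.sec w.2) (m w.1) - a.1 (P.sec w.2)
    let φ : Dual (ZMod p) (P.W → M) := ∑ w, vec w ∘ₗ LinearMap.proj w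
    have hφc : ∀ w, P.comp w φ = vec w := fun w => LinearMap.ext fun v => by
      rw [comp_apply]
      simp only [φ, LinearMap.sum_apply, LinearMap.comp_apply, LinearMap.proj_apply]
      rw [Finset.sum_eq_single w (fun b _ hb => by rw [Pi.single_eq_of_ne hb, map_zero]) (by simp),
        Pi.single_eq_same]
    have key : ∀ g, P.dualFamRep ρ g φ - φ = (P.famSum (M := M)).dualMap (a.1 g) := fun g => by
      refine P.eq_of_comp fun w => ?_
      obtain ⟨i, c⟩ := w
      rw [map_sub, comp_dualFamRep, comp_const, hφc, hφc]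
      simp only [vec, map_sub]
      obtain ⟨d, hd, n, hn, e⟩ := P.exists_decomp (i := i)
        (x := (P.sec c)⁻¹ * (g * P.sec (g⁻¹ • c))) (by
          rw [← QuotientGroup.eq]
          simp only [sec]
          rw [mk_coresSec, ← smul_eq_mul g, ← MulAction.Quotient.smul_mk, mk_coresSec,
            smul_inv_smul])
      set s := P.sec c
      set s' := P.sec (g⁻¹ • c)
      have e1 : g * s' = s * d * n := by rw [mul_assoc s, ← e, mul_inv_cancel_left]
      have h1 : dualTw P.χ ρ g (dualTw P.χ ρ s' (m i)) =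
          dualTw P.χ ρ s (dualTw P.χ ρ d (m i)) := by
        rw [← Module.End.mul_apply, ← map_mul, e1, map_mul, map_mul, Module.End.mul_apply,
          Module.End.mul_apply, P.dualTw_of_mem ρ hρ hn]
      have h2 := a.2.2 g s'
      rw [e1, a.2.2, haN n hn, map_zero, zero_add, a.2.2] at h2
      have h3 : dualTw P.χ ρ d (m i) - m i = a.1 d := hm i ⟨d, hd⟩
      rw [← h3, map_sub] at h2
      rw [h1]
      linear_combination (norm := abel) h2
    refine ⟨⟨φ, (P.mem_dualAnnihilator_famAug ρ).mpr fun g => ⟨a.1 g, (key g).symm⟩⟩, ?_⟩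
    refine congrArg (cl1 P.L (dualTw P.χ ρ)) (Subtype.ext (funext fun g => ?_))
    show P.cocFun ρ φ g = a.1 g
    rw [cocFun, key, comp_const]

omit [FiniteDimensional (ZMod p) M] in
include hρ in
lemma locFun_le : P.locFun ρ ≤ (P.famAug ρ).dualAnnihilator := by
  refine sup_le ?_ ?_
  · rintro _ ⟨f, rfl⟩
    exact (P.mem_dualAnnihilator_famAug ρ).mpr fun g => by
      rw [P.dualFamRep_invFun ρ hρ, sub_self]; exact zero_mem _
  · rintro _ ⟨m', rfl⟩
    exact (P.mem_dualAnnihilator_famAug ρ).mpr fun g => by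
      rw [dualFamRep_const, ← map_sub]; exact ⟨_, rfl⟩

omit [FiniteDimensional (ZMod p) M] in
lemma ker_cocMap [Nonempty P.W] :
    LinearMap.ker (P.cocMap ρ hρ) = (P.locFun ρ).comap (P.famAug ρ).dualAnnihilator.subtype := by
  ext φ
  rw [LinearMap.mem_ker, Submodule.mem_comap, Submodule.subtype_apply]
  show cl1 P.L (dualTw P.χ ρ) _ = 0 ↔ _
  rw [cl1_eq_zero_iff]
  constructor
  · rintro ⟨m', hm'⟩
    have : φ.1 - (P.famSum (M := M)).dualMap m' ∈ LinearMap.range (P.invFun ρ) := by
      refine P.mem_range_invFun ρ hρ fun g => ?_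
      have h := congrArg (P.famSum (M := M)).dualMap (congrFun hm' g)
      simp only [dd₀_apply, map_sub, LinearMap.coe_mk, AddHom.coe_mk, P.const_cocFun ρ φ.2] at h
      rw [map_sub, dualFamRep_const]
      linear_combination (norm := abel) -h
    have h2 := Submodule.add_mem_sup this (LinearMap.mem_range_self (P.famSum (M := M)).dualMap m')
    rwa [sub_add_cancel] at h2
  · intro h
    obtain ⟨_, ⟨f, rfl⟩, _, ⟨m', rfl⟩, e⟩ := Submodule.mem_sup.mp h
    refine ⟨m', funext fun g => ?_⟩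
    refine LinearMap.dualMap_injective_of_surjective (P.famSum_surjective (M := M)) ?_
    simp only [dd₀_apply, map_sub, LinearMap.coe_mk, AddHom.coe_mk, P.const_cocFun ρ φ.2]
    rw [← e, map_add, P.dualFamRep_invFun ρ hρ, dualFamRep_const]
    abel

include hρ hP in
lemma finrank_sha1_add :
    finrank (ZMod p) (P.sha1 (dualTw P.χ ρ)) + finrank (ZMod p) (P.locFun ρ) =
      finrank (ZMod p) (P.famAug ρ).dualAnnihilator := by
  have := hP.nonempty_W
  rw [← P.range_cocMap ρ hρ hP,
    ← LinearMap.finrank_range_add_finrank_ker (P.cocMap ρ hρ), P.ker_cocMap ρ hρ,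
    (Submodule.comapSubtypeEquivOfLe (P.locFun_le ρ hρ)).finrank_eq]

/-- The class of degree `2` attached to a family of sum zero. -/
def classOf : P.zeroSum (M := M) →ₗ[ZMod p] H2c P.L ρ :=
  cores2 P.N ρ P.L P.level_le ∘ₗ
    ((LinearEquiv.ofInjective (P.fam ρ hρ) (P.fam_injective ρ hρ hP)).symm.toLinearMap ∘ₗ
      (LinearEquiv.ofEq _ _ (P.range_fam ρ hρ hP).symm).toLinearMap)

lemma classOf_fam (y : H2c (P.L.comap P.N.subtype) (ρ.comp P.N.subtype))
    (h : P.fam ρ hρ y ∈ P.zeroSum (M := M)) :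
    P.classOf ρ hρ hP ⟨P.fam ρ hρ y, h⟩ = cores2 P.N ρ P.L P.level_le y := by
  refine congrArg (cores2 P.N ρ P.L P.level_le) ?_
  show LinearEquiv.symm _ (LinearEquiv.ofEq _ _ _ _) = y
  rw [LinearEquiv.symm_apply_eq]
  exact Subtype.ext rfl

include hρ hP in
lemma fam_mem_zeroSum (y : H2c (P.L.comap P.N.subtype) (ρ.comp P.N.subtype)) :
    P.fam ρ hρ y ∈ P.zeroSum (M := M) :=
  (famSum_apply P _).trans (P.sum_fam ρ hρ hP y)

include hP in
lemma exists_fam_eq (t : P.zeroSum (M := M)) : ∃ y, P.fam ρ hρ y = t.1 := by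
  have h : t.1 ∈ LinearMap.range (P.fam ρ hρ) := by
    rw [P.range_fam ρ hρ hP]; exact t.2
  exact h

lemma classOf_surjective : Function.Surjective (P.classOf ρ hρ hP) := fun x => by
  have : Finite M := Module.finite_of_finite (ZMod p)
  obtain ⟨y, rfl⟩ := cores2_surjective P.L P.N P.level_le hP.rightExact hρ x
  exact ⟨⟨_, P.fam_mem_zeroSum ρ hρ hP y⟩, P.classOf_fam ρ hρ hP y _⟩

omit [FiniteDimensional (ZMod p) M] in
lemma famAug_le_zeroSum : P.famAug ρ ≤ P.zeroSum (M := M) := by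
  refine iSup_le fun g => ?_
  rintro _ ⟨t, ht, rfl⟩
  have e : P.famSum (P.famRep ρ g t) = P.twAct ρ g (P.famSum t) := by
    simp only [famSum_apply, Fintype.sum_sigma, map_sum, famRep_apply]
    exact Finset.sum_congr rfl fun i _ =>
      Equiv.sum_comp (MulAction.toPerm g⁻¹) fun c => P.twAct ρ g (t ⟨i, c⟩)
  have ht' : P.famSum t = 0 := ht
  show P.famSum (P.famRep ρ g t - t) = 0
  rw [map_sub, e, ht', map_zero, sub_zero]

lemma ker_classOf :
    LinearMap.ker (P.classOf ρ hρ hP) = (P.famAug ρ).comap (P.zeroSum (M := M)).subtype := by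
  have : Finite M := Module.finite_of_finite (ZMod p)
  have haug : (augH2 P.L P.N ρ).map (P.fam ρ hρ) = P.famAug ρ := by
    rw [augH2, Submodule.map_iSup, famAug]
    refine iSup_congr fun g => ?_
    rw [← LinearMap.range_comp]
    have e : P.fam ρ hρ ∘ₗ (conj2 P.L ρ P.N g - LinearMap.id) =
        (P.famRep ρ g - LinearMap.id) ∘ₗ P.fam ρ hρ := LinearMap.ext fun y => by
      simp [P.fam_conj2 ρ hρ]
    rw [e, LinearMap.range_comp, P.range_fam ρ hρ hP]
    rfl
  ext t
  obtain ⟨y, hy⟩ := P.exists_fam_eq ρ hρ hP t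
  obtain ⟨t, ht⟩ := t
  dsimp only at hy
  subst hy
  rw [LinearMap.mem_ker, classOf_fam, Submodule.mem_comap, Submodule.subtype_apply, ← haug,
    ← LinearMap.mem_ker, ker_cores2 P.L P.N P.level_le hP.rightExact hρ]
  refine ⟨fun h => ⟨y, h, rfl⟩, ?_⟩
  rintro ⟨y', hy', e⟩
  rwa [← P.fam_injective ρ hρ hP e]

lemma dualEval_loc2 (y : H2c (P.L.comap P.N.subtype) (ρ.comp P.N.subtype))
    (f : ∀ i, (dualTw (P.χ.comp (P.D i).subtype) (ρ.comp (P.D i).subtype)).invariants) (i : P.ι) :
    dualEval (P.locLev i) (P.χ.comp (P.D i).subtype) (P.inv i) (ρ := ρ.comp (P.D i).subtype)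
        (P.loc2 ρ i (cores2 P.N ρ P.L P.level_le y)) (f i) =
      ∑ c : P.Cosets i, dualTw P.χ ρ (P.sec c) (f i).1 (P.fam ρ hρ y ⟨i, c⟩) := by
  rw [P.loc2_cores2 ρ i y, map_sum, LinearMap.sum_apply]
  refine Finset.sum_congr rfl fun c _ => ?_
  refine (dualEval_cores2 (P.locLev i) (P.Ni i) (P.loc_level_le i) (P.χ.comp (P.D i).subtype)
    (P.inv i) (P.χ_triv_loc i) (P.trivialOn_loc ρ hρ i) _ (f i)).trans ?_
  show (f i).1 (P.valLoc ρ hρ ⟨i, c⟩ y) =
    dualTw P.χ ρ (P.sec c) (f i).1 (P.twAct ρ (P.sec c) (P.valLoc ρ hρ ⟨i, c⟩ y))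
  generalize P.valLoc ρ hρ ⟨i, c⟩ y = v
  generalize P.sec c = s
  rw [Representation.twist_apply_apply ρ P.χ⁻¹, map_smul, dualTw_apply_rho, smul_eq_mul,
    MonoidHom.inv_apply, ← mul_assoc, ← Units.val_mul, inv_mul_cancel, Units.val_one, one_mul]

lemma classOf_mem_sha2_iff (t : P.zeroSum (M := M)) :
    P.classOf ρ hρ hP t ∈ P.sha2 ρ ↔ t.1 ∈ (P.locFun ρ).dualCoannihilator := by
  classical
  obtain ⟨y, hy⟩ := P.exists_fam_eq ρ hρ hP t
  obtain ⟨t, ht⟩ := t
  dsimp only at hy
  subst hy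
  rw [classOf_fam, mem_sha2, Submodule.mem_dualCoannihilator]
  constructor
  · intro h φ hφ
    obtain ⟨_, ⟨f, rfl⟩, _, ⟨m', rfl⟩, rfl⟩ := Submodule.mem_sup.mp hφ
    have h2 : P.famSum (P.fam ρ hρ y) = 0 := P.fam_mem_zeroSum ρ hρ hP y
    rw [LinearMap.add_apply, LinearMap.dualMap_apply, h2, map_zero, add_zero, invFun_apply,
      Fintype.sum_sigma]
    refine Finset.sum_eq_zero fun i _ => ?_
    rw [← P.dualEval_loc2 ρ hρ y f i, show P.loc2 ρ i (cores2 P.N ρ P.L P.level_le y) = 0 from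
      h i, map_zero, LinearMap.zero_apply]
  · intro h
    refine fun i => (dualEval_bijective (P.locLev i) (P.Ni i) (P.loc_level_le i)
      (P.χ.comp (P.D i).subtype) (P.inv i) (P.χ_triv_loc i) (P.trivialOn_loc ρ hρ i)
      (hP.invCores_bijective i) (hP.loc_rightExact i)).1 ?_
    show _ = dualEval (P.locLev i) (P.χ.comp (P.D i).subtype) (P.inv i)
      (ρ := ρ.comp (P.D i).subtype) 0
    rw [map_zero]
    refine LinearMap.ext fun f => ?_
    let F : ∀ j, (dualTw (P.χ.comp (P.D j).subtype) (ρ.comp (P.D j).subtype)).invariants :=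
      Pi.single i f
    have h1 := h (P.invFun ρ F) (Submodule.mem_sup_left ⟨F, rfl⟩)
    rw [invFun_apply, Fintype.sum_sigma, Finset.sum_eq_single i
      (fun j _ hj => by simp [F, Pi.single_eq_of_ne hj]) (by simp)] at h1
    simp only at h1
    rw [← P.dualEval_loc2 ρ hρ y F i] at h1
    simp only [F, Pi.single_eq_same] at h1
    exact h1

include hρ hP in
lemma finite_H2 : FiniteDimensional (ZMod p) (H2c P.L ρ) :=
  Module.Finite.of_surjective _ (P.classOf_surjective ρ hρ hP)

include hρ hP in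
lemma finrank_H2_add_famAug :
    finrank (ZMod p) (H2c P.L ρ) + finrank (ZMod p) (P.famAug ρ) =
      finrank (ZMod p) (P.zeroSum (M := M)) := by
  rw [← LinearMap.finrank_range_add_finrank_ker (P.classOf ρ hρ hP),
    LinearMap.range_eq_top.mpr (P.classOf_surjective ρ hρ hP), finrank_top,
    P.ker_classOf ρ hρ hP, (Submodule.comapSubtypeEquivOfLe (P.famAug_le_zeroSum ρ)).finrank_eq]

omit [FiniteDimensional (ZMod p) M] in
lemma coann_locFun_le : (P.locFun ρ).dualCoannihilator ≤ P.zeroSum (M := M) := by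
  have h : LinearMap.range (P.famSum (M := M)).dualMap ≤ P.locFun ρ := le_sup_right
  refine (Submodule.dualCoannihilator_anti h).trans ?_
  rw [← P.dualAnnihilator_zeroSum, Subspace.dualAnnihilator_dualCoannihilator_eq]

include hρ hP in
lemma finrank_sha2_add :
    finrank (ZMod p) (P.sha2 ρ) + finrank (ZMod p) (P.famAug ρ) =
      finrank (ZMod p) (P.locFun ρ).dualCoannihilator := by
  have := P.finite_H2 ρ hρ hP
  let Z := ((P.locFun ρ).dualCoannihilator).comap (P.zeroSum (M := M)).subtype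
  have hrange : LinearMap.range ((P.classOf ρ hρ hP).domRestrict Z) = P.sha2 ρ := by
    refine le_antisymm ?_ fun x hx => ?_
    · rintro _ ⟨t, rfl⟩
      exact (P.classOf_mem_sha2_iff ρ hρ hP t.1).mpr t.2
    · obtain ⟨t, rfl⟩ := P.classOf_surjective ρ hρ hP x
      exact ⟨⟨t, (P.classOf_mem_sha2_iff ρ hρ hP t).mp hx⟩, rfl⟩
  have hA : P.famAug ρ ≤ (P.locFun ρ).dualCoannihilator := by
    refine le_trans ?_ (Submodule.dualCoannihilator_anti (P.locFun_le ρ hρ))
    rw [Subspace.dualAnnihilator_dualCoannihilator_eq]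
  have hker : finrank (ZMod p) (LinearMap.ker ((P.classOf ρ hρ hP).domRestrict Z)) =
      finrank (ZMod p) (P.famAug ρ) := by
    rw [LinearMap.ker_domRestrict, P.ker_classOf ρ hρ hP,
      (Submodule.comapSubtypeEquivOfLe (Submodule.comap_mono hA)).finrank_eq,
      (Submodule.comapSubtypeEquivOfLe (P.famAug_le_zeroSum ρ)).finrank_eq]
  rw [← hker, ← hrange, LinearMap.finrank_range_add_finrank_ker,
    (Submodule.comapSubtypeEquivOfLe (P.coann_locFun_le ρ)).finrank_eq]

include hρ hP in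
/-- `dim Ш²(M) = dim Ш¹(M')`. -/
theorem finrank_sha2 : finrank (ZMod p) (P.sha2 ρ) = finrank (ZMod p) (P.sha1 (dualTw P.χ ρ)) := by
  have h1 := P.finrank_sha1_add ρ hρ hP
  have h2 := P.finrank_sha2_add ρ hρ hP
  have h3 := Subspace.finrank_add_finrank_dualAnnihilator_eq (P.famAug ρ)
  have h4 := Subspace.finrank_dualCoannihilator_eq (Φ := P.locFun ρ)
  have h5 := (P.locFun ρ).finrank_le
  rw [h4] at h2
  have h6 : finrank (ZMod p) (P.locFun ρ).dualAnnihilator + finrank (ZMod p) (P.locFun ρ) =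
      finrank (ZMod p) (Dual (ZMod p) (P.W → M)) := by
    rw [add_comm]
    exact Subspace.finrank_add_finrank_dualAnnihilator_eq _
  have h7 : finrank (ZMod p) (Dual (ZMod p) (P.W → M)) = finrank (ZMod p) (P.W → M) :=
    Subspace.dual_finrank_eq
  omega

include hρ hP in
/-- The size of `H²`. -/
theorem finrank_H2 :
    finrank (ZMod p) (H2c P.L ρ) + finrank (ZMod p) (dualTw P.χ ρ).invariants =
      finrank (ZMod p) (P.sha1 (dualTw P.χ ρ)) + ∑ i,
        finrank (ZMod p) (dualTw (P.χ.comp (P.D i).subtype) (ρ.comp (P.D i).subtype)).invariants := by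
  have := hP.nonempty_W
  have h1 := P.finrank_H2_add_famAug ρ hρ hP
  have h2 := P.finrank_sha1_add ρ hρ hP
  have h3 := Subspace.finrank_add_finrank_dualAnnihilator_eq (P.famAug ρ)
  have hsum : finrank (ZMod p) (P.zeroSum (M := M)) + finrank (ZMod p) M =
      finrank (ZMod p) (P.W → M) := by
    rw [zeroSum, ← LinearMap.finrank_range_add_finrank_ker (P.famSum (M := M)),
      LinearMap.range_eq_top.mpr P.famSum_surjective, finrank_top]
    omega
  have hF : finrank (ZMod p) (LinearMap.range (P.invFun ρ)) = ∑ i,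
      finrank (ZMod p) (dualTw (P.χ.comp (P.D i).subtype) (ρ.comp (P.D i).subtype)).invariants := by
    rw [LinearMap.finrank_range_of_inj (P.invFun_injective ρ hρ), Module.finrank_pi_fintype]
  have hinj : Function.Injective (P.famSum (M := M)).dualMap :=
    LinearMap.dualMap_injective_of_surjective P.famSum_surjective
  have hC : finrank (ZMod p) (LinearMap.range (P.famSum (M := M)).dualMap) =
      finrank (ZMod p) M := by
    rw [LinearMap.finrank_range_of_inj hinj, Subspace.dual_finrank_eq]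
  have hinf : LinearMap.range (P.invFun ρ) ⊓ LinearMap.range (P.famSum (M := M)).dualMap =
      (dualTw P.χ ρ).invariants.map (P.famSum (M := M)).dualMap := by
    refine le_antisymm ?_ ?_
    · rintro _ ⟨⟨f, hf⟩, m', rfl⟩
      refine ⟨m', fun g => hinj ?_, rfl⟩
      rw [← dualFamRep_const, ← hf, P.dualFamRep_invFun ρ hρ, hf]
    · rintro _ ⟨m', hm', rfl⟩
      exact ⟨P.mem_range_invFun ρ hρ fun g => by rw [dualFamRep_const, hm' g], m', rfl⟩
  have hsupinf := Submodule.finrank_sup_add_finrank_inf_eq (LinearMap.range (P.invFun ρ))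
    (LinearMap.range (P.famSum (M := M)).dualMap)
  rw [hF, hC, hinf, ← (Submodule.equivMapOfInjective _ hinj _).finrank_eq] at hsupinf
  rw [locFun] at h2
  omega

end Datum

end

end FermatAgent.Duality
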