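import Fermat.Agent.Duality.Core.Coinvariants
import Fermat.Prelude.Def_GroupCohomology_Selmer
import Mathlib.LinearAlgebra.Dual.Lemmas

/-!
# `H²` with trivial coefficients measured against a functional

For a module on which `G` acts trivially, a functional on `H²(G, k)` gives a map
`H²(G, M) → M`, injective or surjective as soon as the functional is.
-/

set_option autoImplicit false

namespace FermatAgent.Duality

open Module

noncomputable section

/-- The character `χ` as a representation on `k`. -/
abbrev cyc {k G : Type*} [CommRing k] [Group G] (χ : G →* kˣ) : Representation k G k :=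
  (triv k G).twist χ

/-- The twisted dual. -/
abbrev dualTw {k G M : Type*} [CommRing k] [Group G] [AddCommGroup M] [Module k M]
    (χ : G →* kˣ) (ρ : Representation k G M) : Representation k G (Dual k M) :=
  ρ.dual.twist χ

lemma dualTw_apply {k G M : Type*} [CommRing k] [Group G] [AddCommGroup M] [Module k M]
    (χ : G →* kˣ) (ρ : Representation k G M) (g : G) (f : Dual k M) (m : M) :
    dualTw χ ρ g f m = (χ g : k) * f (ρ g⁻¹ m) := rfl

lemma dualTw_apply_rho {k G M : Type*} [CommRing k] [Group G] [AddCommGroup M] [Module k M]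
    (χ : G →* kˣ) (ρ : Representation k G M) (g : G) (f : Dual k M) (m : M) :
    dualTw χ ρ g f (ρ g m) = (χ g : k) * f m := by
  rw [dualTw_apply, ← Module.End.mul_apply, ← map_mul, inv_mul_cancel]
  simp

lemma isEquivariant_of_mem_invariants {k G M : Type*} [CommRing k] [Group G] [AddCommGroup M]
    [Module k M] (χ : G →* kˣ) (ρ : Representation k G M) {f : Dual k M}
    (hf : f ∈ (dualTw χ ρ).invariants) :
    IsEquivariant ρ (cyc χ) (MonoidHom.id G) (f : M →ₗ[k] k) := fun g m => by
  show f (ρ g m) = (χ g : k) * f m
  conv_lhs => rw [← hf g]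
  rw [dualTw_apply_rho]

section Line

variable {k G : Type*} [Field k] [Group G] {L : LevelSystem G}
variable {M : Type*} [AddCommGroup M] [Module k M]
variable {ρ : Representation k G M} {σ : Representation k G k}

lemma isEquivariant_of_trivial (hρ : ∀ g m, ρ g m = m) (hσ : ∀ g x, σ g x = x)
    (f : M →ₗ[k] k) : IsEquivariant ρ σ (MonoidHom.id G) f := fun g m => by
  rw [MonoidHom.id_apply, hρ, hσ]

lemma isEquivariant_toSpanSingleton (hρ : ∀ g m, ρ g m = m) (hσ : ∀ g x, σ g x = x) (m : M) :
    IsEquivariant σ ρ (MonoidHom.id G) (LinearMap.toSpanSingleton k M m) := fun g x => by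
  rw [MonoidHom.id_apply, hρ, hσ]

variable (hρ : ∀ g m, ρ g m = m) (hσ : ∀ g x, σ g x = x) (J : H2c L σ →ₗ[k] k)

/-- `y ↦ (f ↦ J (f_* y))`. -/
def lineEval : H2c L ρ →ₗ[k] Dual k (Dual k M) :=
  LinearMap.mk₂ k
    (fun (y : H2c L ρ) (f : Dual k M) =>
      J (map2 ρ σ (isLevHom_id L) (isEquivariant_of_trivial hρ hσ f) y))
    (fun a b f => by simp) (fun r a f => by simp)
    (fun y f f' => by
      induction y using Submodule.Quotient.induction_on with
      | _ z =>
        rw [← map_add]
        exact congrArg J (congrArg (cl2 L σ) (Subtype.ext (funext fun q => rfl))))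
    (fun r f y => by
      induction f using Submodule.Quotient.induction_on with
      | _ z =>
        rw [← map_smul]
        exact congrArg J (congrArg (cl2 L σ) (Subtype.ext (funext fun q => rfl))))

variable [FiniteDimensional k M]

/-- The element of `M` measured by the functional. -/
def lineVal : H2c L ρ →ₗ[k] M :=
  (Module.evalEquiv k M).symm.toLinearMap ∘ₗ lineEval hρ hσ J

lemma apply_lineVal (y : H2c L ρ) (f : Dual k M) :
    f (lineVal hρ hσ J y) = J (map2 ρ σ (isLevHom_id L) (isEquivariant_of_trivial hρ hσ f) y) := by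
  rw [lineVal, LinearMap.comp_apply]
  exact Module.apply_evalEquiv_symm_apply _ _ f _

lemma lineVal_map2_toSpanSingleton (m : M) (x : H2c L σ) :
    lineVal hρ hσ J (map2 σ ρ (isLevHom_id L) (isEquivariant_toSpanSingleton hρ hσ m) x) =
      J x • m := by
  refine (Module.evalEquiv k M).injective (LinearMap.ext fun f => ?_)
  show f _ = f _
  rw [apply_lineVal, map2_map2, map_smul, smul_eq_mul, mul_comm, ← smul_eq_mul, ← map_smul]
  refine congrArg J ?_
  induction x using Submodule.Quotient.induction_on with
  | _ z =>
    refine congrArg (cl2 L σ) (Subtype.ext (funext fun q => ?_))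
    show f (z.1 q • m) = f m * z.1 q
    rw [map_smul, smul_eq_mul, mul_comm]

omit [FiniteDimensional k M] in
/-- A class is the sum of its coordinates. -/
lemma eq_sum_coord (b : Basis (Fin (finrank k M)) k M) (y : H2c L ρ) :
    y = ∑ i, map2 σ ρ (isLevHom_id L) (isEquivariant_toSpanSingleton hρ hσ (b i))
      (map2 ρ σ (isLevHom_id L) (isEquivariant_of_trivial hρ hσ (b.coord i)) y) := by
  simp only [map2_map2]
  refine Eq.trans ?_ (map2_eq_sum (φ := LinearMap.id) _ (fun g m => rfl) _ ?_ y)
  · exact (map2_id_apply y).symm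
  · refine LinearMap.ext fun m => ?_
    rw [LinearMap.sum_apply, LinearMap.id_apply]
    exact (b.sum_repr m).symm

lemma lineVal_injective (hJ : Function.Injective J) :
    Function.Injective (lineVal hρ hσ J) := by
  rw [← LinearMap.ker_eq_bot]
  refine (Submodule.eq_bot_iff _).mpr fun y hy => ?_
  rw [LinearMap.mem_ker] at hy
  rw [eq_sum_coord hρ hσ (Module.finBasis k M) y]
  refine Finset.sum_eq_zero fun i _ => ?_
  have h := apply_lineVal hρ hσ J y ((Module.finBasis k M).coord i)
  rw [hy, map_zero] at h
  rw [hJ (h.symm.trans (map_zero J).symm), map_zero]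

lemma lineVal_surjective (hJ : Function.Surjective J) :
    Function.Surjective (lineVal hρ hσ J) := fun m => by
  obtain ⟨x, hx⟩ := hJ 1
  exact ⟨_, (lineVal_map2_toSpanSingleton hρ hσ J m x).trans (by rw [hx, one_smul])⟩

end Line

end

end FermatAgent.Duality
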