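import Fermat.Agent.Duality.PT.Line
import Fermat.Agent.Duality.Core.Inner

/-!
# Duality between `H²` and invariants of the twisted dual

`N` is a normal subgroup of finite index with `H²` right exact on modules trivial on it, `χ` a
character trivial on `N` and `inv` a functional on `H²(G, k(χ))` such that `inv ∘ cores` is
bijective on `H²(N, k)`. Then `H²(G, M)` is dual to the invariants of `Dual M (χ)`.
-/

set_option autoImplicit false

namespace FermatAgent.Duality

open Module

noncomputable section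

section Invariants

variable {k G M : Type*} [Field k] [Group G] [AddCommGroup M] [Module k M]
  (χ : G →* kˣ) (ρ : Representation k G M)

/-- The span of the `χ(g)⁻¹ g m - m`. -/
def twistAug : Submodule k M := ⨆ g : G, LinearMap.range ((ρ.twist χ⁻¹) g - LinearMap.id)

lemma dualAnnihilator_twistAug :
    (twistAug χ ρ).dualAnnihilator = (dualTw χ ρ).invariants := by
  ext f
  rw [twistAug, Submodule.dualAnnihilator_iSup_eq, Submodule.mem_iInf]
  simp only [Submodule.mem_dualAnnihilator, LinearMap.mem_range, forall_exists_index,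
    forall_apply_eq_imp_iff, LinearMap.sub_apply, LinearMap.id_apply, map_sub, sub_eq_zero,
    Representation.twist_apply_apply, map_smul, MonoidHom.inv_apply]
  constructor
  · intro h g
    refine LinearMap.ext fun m => ?_
    have h1 := h g (ρ g⁻¹ m)
    rw [← Module.End.mul_apply, ← map_mul, mul_inv_cancel, map_one, Module.End.one_apply,
      smul_eq_mul] at h1
    rw [dualTw_apply, ← h1, ← mul_assoc, ← Units.val_mul, mul_inv_cancel, Units.val_one, one_mul]
  · intro hf g m
    rw [smul_eq_mul]
    conv_lhs => rw [← hf g, dualTw_apply_rho, ← mul_assoc, ← Units.val_mul, inv_mul_cancel]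
    simp

end Invariants

variable {p : ℕ} [Fact p.Prime] {G : Type} [Group G] (L : LevelSystem G) (N : Subgroup G)
  [N.Normal] [Fintype (G ⧸ N)] (hU : ∃ V ∈ L.lev, V ≤ N) (χ : G →* (ZMod p)ˣ)
  (inv : H2c L (cyc χ) →ₗ[ZMod p] ZMod p)

/-- `inv ∘ cores` on `H²(N, k)`. -/
def invCores : H2c (L.comap N.subtype) ((cyc χ).comp N.subtype) →ₗ[ZMod p] ZMod p :=
  inv ∘ₗ cores2 N (cyc χ) L hU

variable (hχ : ∀ n ∈ N, χ n = 1)
variable {M : Type} [AddCommGroup M] [Module (ZMod p) M] {ρ : Representation (ZMod p) G M}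
  (hρ : TrivialOn N ρ)

include hχ in
omit [N.Normal] [Fintype (G ⧸ N)] in
lemma cyc_trivial (n : N) (x : ZMod p) : (cyc χ).comp N.subtype n x = x := by
  show (χ (n : G) : ZMod p) * x = x
  rw [hχ _ n.2, Units.val_one, one_mul]

include hρ in
omit [N.Normal] [Fintype (G ⧸ N)] in
lemma trivial_of_trivialOn (n : N) (m : M) : ρ.comp N.subtype n m = m := hρ _ n.2 m

/-- Evaluation of functionals fixed by `G`. -/
def dualEval : H2c L ρ →ₗ[ZMod p] Dual (ZMod p) (dualTw χ ρ).invariants :=
  LinearMap.mk₂ (ZMod p)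
    (fun (x : H2c L ρ) (f : (dualTw χ ρ).invariants) =>
      inv (map2 ρ (cyc χ) (isLevHom_id L) (isEquivariant_of_mem_invariants χ ρ f.2) x))
    (fun a b f => by simp) (fun r a f => by simp)
    (fun x f f' => by
      induction x using Submodule.Quotient.induction_on with
      | _ z =>
        rw [← map_add]
        exact congrArg inv (congrArg (cl2 L (cyc χ)) (Subtype.ext (funext fun q => rfl))))
    (fun r f x => by
      induction f using Submodule.Quotient.induction_on with
      | _ z =>
        rw [← map_smul]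
        exact congrArg inv (congrArg (cl2 L (cyc χ)) (Subtype.ext (funext fun q => rfl))))

lemma dualEval_apply (x : H2c L ρ) (f : (dualTw χ ρ).invariants) :
    dualEval L χ inv (ρ := ρ) x f =
      inv (map2 ρ (cyc χ) (isLevHom_id L) (isEquivariant_of_mem_invariants χ ρ f.2) x) := rfl

variable [FiniteDimensional (ZMod p) M]

/-- The element of `M` attached to a class of `N`. -/
def valN : H2c (L.comap N.subtype) (ρ.comp N.subtype) →ₗ[ZMod p] M :=
  lineVal (trivial_of_trivialOn N hρ) (cyc_trivial N χ hχ) (invCores L N hU χ inv)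

omit [N.Normal] in
lemma apply_valN (y : H2c (L.comap N.subtype) (ρ.comp N.subtype)) (f : Dual (ZMod p) M) :
    f (valN L N hU χ inv hχ hρ y) = invCores L N hU χ inv
      (map2 (ρ.comp N.subtype) ((cyc χ).comp N.subtype) (isLevHom_id _)
        (isEquivariant_of_trivial (trivial_of_trivialOn N hρ) (cyc_trivial N χ hχ) f) y) :=
  apply_lineVal _ _ _ y f

lemma valN_conj2 (g : G) (y : H2c (L.comap N.subtype) (ρ.comp N.subtype)) :
    valN L N hU χ inv hχ hρ (conj2 L ρ N g y) =
      (ρ.twist χ⁻¹) g (valN L N hU χ inv hχ hρ y) := by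
  refine (Module.evalEquiv (ZMod p) M).injective (LinearMap.ext fun f => ?_)
  show f _ = f _
  rw [Representation.twist_apply_apply, MonoidHom.inv_apply, map_smul, smul_eq_mul]
  let f' : Dual (ZMod p) M := ((χ g)⁻¹ : (ZMod p)ˣ).val • (f ∘ₗ ρ g)
  rw [show (((χ g)⁻¹ : (ZMod p)ˣ) : ZMod p) * f (ρ g (valN L N hU χ inv hχ hρ y)) =
    f' (valN L N hU χ inv hχ hρ y) from rfl]
  rw [valN, apply_lineVal, apply_lineVal]
  simp only [invCores, LinearMap.comp_apply]
  rw [← cores2_conj2 L N (cyc χ) hU g
    (map2 (ρ.comp N.subtype) ((cyc χ).comp N.subtype) (isLevHom_id _)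
      (isEquivariant_of_trivial (trivial_of_trivialOn N hρ) (cyc_trivial N χ hχ) f') y)]
  refine congrArg inv (congrArg (cores2 N (cyc χ) L hU) ?_)
  simp only [conj2, map2_map2]
  refine map2_congr _ _ (fun _ => rfl) (fun m => ?_) y
  show f (ρ g m) = (χ g : ZMod p) * ((((χ g)⁻¹ : (ZMod p)ˣ) : ZMod p) * f (ρ g m))
  rw [← mul_assoc, ← Units.val_mul, mul_inv_cancel, Units.val_one, one_mul]

omit [N.Normal] in
lemma dualEval_cores2 (y : H2c (L.comap N.subtype) (ρ.comp N.subtype))
    (f : (dualTw χ ρ).invariants) :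
    dualEval L χ inv (ρ := ρ) (cores2 N ρ L hU y) f =
      (f : Dual (ZMod p) M) (valN L N hU χ inv hχ hρ y) := by
  rw [dualEval_apply, valN, apply_lineVal, invCores, LinearMap.comp_apply,
    ← cores2_map2 N L hU (isEquivariant_of_mem_invariants χ ρ f.2)]

variable (hbij : Function.Bijective (invCores L N hU χ inv))

omit [N.Normal] in
include hbij in
lemma valN_bijective : Function.Bijective (valN L N hU χ inv hχ hρ) :=
  ⟨lineVal_injective _ _ _ hbij.1, lineVal_surjective _ _ _ hbij.2⟩

include hχ hρ hbij in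
/-- Duality between `H²(G, M)` and the invariants of the twisted dual. -/
theorem dualEval_bijective (h2 : RightExact2 p L N) :
    Function.Bijective (dualEval L χ inv (ρ := ρ)) := by
  have : Finite M := Module.finite_of_finite (ZMod p)
  constructor
  · rw [← LinearMap.ker_eq_bot]
    refine (Submodule.eq_bot_iff _).mpr fun x hx => ?_
    rw [LinearMap.mem_ker] at hx
    obtain ⟨y, rfl⟩ := cores2_surjective L N hU h2 hρ x
    have hy : valN L N hU χ inv hχ hρ y ∈ twistAug χ ρ := by
      rw [← Subspace.dualAnnihilator_dualCoannihilator_eq (W := twistAug χ ρ),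
        dualAnnihilator_twistAug, Submodule.mem_dualCoannihilator]
      intro f hf
      rw [← dualEval_cores2 L N hU χ inv hχ hρ y ⟨f, hf⟩, hx, LinearMap.zero_apply]
    have hle : twistAug χ ρ ≤ (augH2 L N ρ).map (valN L N hU χ inv hχ hρ) := by
      refine iSup_le fun g => ?_
      rintro _ ⟨m, rfl⟩
      obtain ⟨w, rfl⟩ := (valN_bijective L N hU χ inv hχ hρ hbij).2 m
      exact ⟨(conj2 L ρ N g - LinearMap.id : _ →ₗ[ZMod p] _) w,
        Submodule.mem_iSup_of_mem g ⟨w, rfl⟩, by simp [valN_conj2]⟩
    obtain ⟨u, hu, huy⟩ := hle hy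
    rw [(valN_bijective L N hU χ inv hχ hρ hbij).1 huy] at hu
    exact LinearMap.mem_ker.mp (by rw [ker_cores2 L N hU h2 hρ]; exact hu)
  · intro φ
    obtain ⟨φ', hφ'⟩ := (LinearMap.dualMap_surjective_of_injective
      ((dualTw χ ρ).invariants.subtype_injective)) φ
    obtain ⟨m, rfl⟩ := (Module.evalEquiv (ZMod p) M).surjective φ'
    obtain ⟨y, rfl⟩ := (valN_bijective L N hU χ inv hχ hρ hbij).2 m
    refine ⟨cores2 N ρ L hU y, LinearMap.ext fun f => ?_⟩
    rw [dualEval_cores2 L N hU χ inv hχ hρ, ← hφ']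
    rfl

end

end FermatAgent.Duality
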