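import Fermat.Agent.Duality.PT.Pairing

/-!
# Nondegeneracy in degree `1` and Euler characteristics over a group with `p`-group image

Dévissage by lines with trivial action, using the six-term sequence and right exactness of `H²`.
-/

set_option autoImplicit false

namespace FermatAgent.Duality

open Module

noncomputable section

section Adjoint

variable {k G : Type*} [Field k] [Group G] (χ : G →* kˣ) {L : LevelSystem G}
variable {A B C : Type*} [AddCommGroup A] [Module k A] [AddCommGroup B] [Module k B]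
  [AddCommGroup C] [Module k C]
  {ρA : Representation k G A} {ρB : Representation k G B} {ρC : Representation k G C}

lemma isEquivariant_dualMap {φ : A →ₗ[k] B} (hφ : IsEquivariant ρA ρB (MonoidHom.id G) φ) :
    IsEquivariant (dualTw χ ρB) (dualTw χ ρA) (MonoidHom.id G) φ.dualMap := fun g f =>
  LinearMap.ext fun m => by
    show dualTw χ ρB g f (φ m) = dualTw χ ρA g (φ.dualMap f) m
    have h := hφ g⁻¹ m
    simp only [MonoidHom.id_apply] at h
    rw [dualTw_apply, dualTw_apply, LinearMap.dualMap_apply, h]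

/-- The dual short exact sequence. -/
def SES.dual (S : SES ρA ρB ρC) : SES (dualTw χ ρC) (dualTw χ ρB) (dualTw χ ρA) where
  incl := S.proj.dualMap
  proj := S.incl.dualMap
  incl_equiv := isEquivariant_dualMap χ S.isEquivariant_proj
  proj_equiv := isEquivariant_dualMap χ S.isEquivariant_incl
  injective := LinearMap.dualMap_injective_of_surjective S.surjective
  surjective := LinearMap.dualMap_surjective_of_injective S.injective
  exact := fun f => by
    constructor
    · intro hf
      refine ⟨f ∘ₗ S.sec, LinearMap.ext fun b => ?_⟩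
      have h0 : S.proj (b - S.sec (S.proj b)) = 0 := by simp
      have h2 : f (b - S.sec (S.proj b)) = 0 := by
        rw [← S.incl_ret h0]
        exact LinearMap.congr_fun hf _
      rw [map_sub, sub_eq_zero] at h2
      exact h2.symm
    · rintro ⟨c, rfl⟩
      exact LinearMap.ext fun a => by
        show c (S.proj (S.incl a)) = 0
        rw [S.proj_incl, map_zero]

variable (inv : H2c L (cyc χ) →ₗ[k] k)

lemma pair1_map1 {φ : A →ₗ[k] B} (hφ : IsEquivariant ρA ρB (MonoidHom.id G) φ) (x : H1c L ρA)
    (y : H1c L (dualTw χ ρB)) :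
    pair1 χ ρB L inv (map1 ρA ρB (isLevHom_id L) hφ x) y = pair1 χ ρA L inv x
      (map1 (dualTw χ ρB) (dualTw χ ρA) (isLevHom_id L) (isEquivariant_dualMap χ hφ) y) := by
  induction x using Submodule.Quotient.induction_on with
  | _ a =>
  induction y using Submodule.Quotient.induction_on with
  | _ b =>
    refine congrArg inv (congrArg (cl2 L (cyc χ)) (Subtype.ext (funext fun q => ?_)))
    show dualTw χ ρB q.1 (b.1 q.2) (φ (a.1 q.1)) =
      dualTw χ ρA q.1 (φ.dualMap (b.1 q.2)) (a.1 q.1)
    have h := isEquivariant_dualMap χ hφ q.1 (b.1 q.2)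
    simp only [MonoidHom.id_apply] at h
    rw [← h]
    rfl

end Adjoint

section Connecting

variable {p : ℕ} [Fact p.Prime] {G : Type} [Group G] (χ : G →* (ZMod p)ˣ) {L : LevelSystem G}
  (inv : H2c L (cyc χ) →ₗ[ZMod p] ZMod p)
variable {A B C : Type} [AddCommGroup A] [Module (ZMod p) A] [AddCommGroup B] [Module (ZMod p) B]
  [AddCommGroup C] [Module (ZMod p) C] {ρA : Representation (ZMod p) G A}
  {ρB : Representation (ZMod p) G B} {ρC : Representation (ZMod p) G C}

lemma eval_mem_invariants {c : C} (hc : ∀ g, ρC g c = c) :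
    Dual.eval (ZMod p) C c ∈ (dualTw χ (dualTw χ ρC)).invariants := fun g => by
  rw [dualTw_dualTw_eval, hc]

/-- The connecting maps are adjoint up to sign. -/
theorem dualEval_delta₁ (S : SES ρA ρB ρC) (hB : IsSmooth L ρB)
    (hB' : IsSmooth L (dualTw χ ρB)) (c : ρC.invariants) (y : H1c L (dualTw χ ρA)) :
    dualEval L χ inv (ρ := dualTw χ ρC) ((S.dual χ).delta₁ L hB' y)
        ⟨Dual.eval (ZMod p) C c.1, eval_mem_invariants χ c.2⟩ =
      -pair1 χ ρA L inv (S.delta₀ L hB c) y := by
  induction y using Submodule.Quotient.induction_on with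
  | _ b =>
  rw [dualEval_apply, eq_neg_iff_add_eq_zero]
  show inv _ + inv _ = 0
  rw [← map_add]
  refine (congrArg inv ?_).trans (map_zero inv)
  show cl2 L (cyc χ) _ + cl2 L (cyc χ) _ = 0
  rw [← map_add, cl2_eq_zero_iff]
  let η : G → Dual (ZMod p) B := (S.dual χ).sec ∘ b.1
  refine ⟨fun g => η g (S.sec c.1),
    (b.2.1.comp (S.dual χ).sec).comp (fun f => f (S.sec c.1)), funext fun q => ?_⟩
  obtain ⟨g, h⟩ := q
  show dd₁ (cyc χ) _ (g, h) = ((S.dual χ).delta₁Z L hB' b).1 (g, h) c.1 +
    dualTw χ ρA g (b.1 h) (S.delta₀Fun c.1 g)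
  have e1 : ((S.dual χ).delta₁Z L hB' b).1 (g, h) c.1 =
      dd₁ (dualTw χ ρB) η (g, h) (S.sec c.1) := by
    show _ = dd₁ (dualTw χ ρB) ((S.dual χ).sec ∘ b.1) (g, h) (S.sec c.1)
    rw [← (S.dual χ).incl_delta₁Z L hB' b]
    show _ = ((S.dual χ).delta₁Z L hB' b).1 (g, h) (S.proj (S.sec c.1))
    rw [S.proj_sec]
  have e2 : dualTw χ ρA g (b.1 h) (S.delta₀Fun c.1 g) =
      dualTw χ ρB g (η h) (dd₀ ρB (S.sec c.1) g) := by
    rw [← S.incl_delta₀Fun c.2 g]
    show _ = (S.dual χ).proj (dualTw χ ρB g (η h)) (S.delta₀Fun c.1 g)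
    rw [(S.dual χ).proj_equiv]
    show _ = dualTw χ ρA g ((S.dual χ).proj ((S.dual χ).sec (b.1 h))) _
    rw [SES.proj_sec]
  rw [e1, e2, dd₁_apply, dd₁_apply, dd₀_apply, map_sub, dualTw_apply_rho, LinearMap.add_apply,
    LinearMap.sub_apply]
  show (χ g : ZMod p) * η h (S.sec c.1) - _ + _ = _
  abel

end Connecting

section Devissage

variable {p : ℕ} [Fact p.Prime] {G : Type} [Group G] (N : Subgroup G) [N.Normal]
  (hN : IsPGroup p (G ⧸ N))

include hN in
/-- Dévissage: a property closed under extensions which holds for lines holds for all finite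
modules on which `N` acts trivially. -/
theorem pGroup_induction
    (P : ∀ {M : Type} [AddCommGroup M] [Module (ZMod p) M], Representation (ZMod p) G M → Prop)
    (hzero : ∀ {M : Type} [AddCommGroup M] [Module (ZMod p) M] [Subsingleton M]
      (ρ : Representation (ZMod p) G M), P ρ)
    (hline : ∀ {M : Type} [AddCommGroup M] [Module (ZMod p) M] (ρ : Representation (ZMod p) G M),
      (∀ g m, ρ g m = m) → finrank (ZMod p) M = 1 → P ρ)
    (hext : ∀ {A B C : Type} [AddCommGroup A] [Module (ZMod p) A] [AddCommGroup B]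
      [Module (ZMod p) B] [AddCommGroup C] [Module (ZMod p) C] [FiniteDimensional (ZMod p) B]
      (ρA : Representation (ZMod p) G A) (ρB : Representation (ZMod p) G B)
      (ρC : Representation (ZMod p) G C) (_S : SES ρA ρB ρC),
      TrivialOn N ρA → TrivialOn N ρB → TrivialOn N ρC → P ρA → P ρC → P ρB)
    {M : Type} [AddCommGroup M] [Module (ZMod p) M] [FiniteDimensional (ZMod p) M]
    (ρ : Representation (ZMod p) G M) (hρ : TrivialOn N ρ) : P ρ := by
  induction h : finrank (ZMod p) M using Nat.strong_induction_on generalizing M with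
  | _ n ih =>
  cases subsingleton_or_nontrivial M with
  | inl hs => exact hzero ρ
  | inr hn =>
  have : Finite M := Module.finite_of_finite (ZMod p)
  obtain ⟨c, hc0, hc⟩ := exists_fixed_vector N hN ρ hρ
  let C₁ : Submodule (ZMod p) M := Submodule.span (ZMod p) {c}
  have hfix : ∀ g, ∀ x ∈ C₁, ρ g x = x := fun g x hx => by
    obtain ⟨r, rfl⟩ := Submodule.mem_span_singleton.mp hx
    rw [map_smul, hc]
  have hC₁ : ∀ g, C₁ ≤ C₁.comap (ρ g) := fun g x hx => by
    show ρ g x ∈ C₁
    rw [hfix g x hx]
    exact hx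
  let S : SES (ρ.subrepresentation C₁ hC₁) ρ (ρ.quotient C₁ hC₁) :=
    { incl := C₁.subtype
      proj := C₁.mkQ
      incl_equiv := fun g a => rfl
      proj_equiv := fun g b => rfl
      injective := C₁.subtype_injective
      surjective := C₁.mkQ_surjective
      exact := LinearMap.exact_subtype_mkQ C₁ }
  have h1 : finrank (ZMod p) C₁ = 1 := finrank_span_singleton hc0
  have hq : finrank (ZMod p) (M ⧸ C₁) < n := by
    have := Submodule.finrank_quotient_add_finrank C₁
    omega
  have hρA : TrivialOn N (ρ.subrepresentation C₁ hC₁) := fun g hg x => Subtype.ext (hρ g hg x.1)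
  have hρC : TrivialOn N (ρ.quotient C₁ hC₁) := fun g hg x => by
    obtain ⟨m, rfl⟩ := C₁.mkQ_surjective x
    exact (S.proj_equiv g m).symm.trans (congrArg C₁.mkQ (hρ g hg m))
  exact hext _ ρ _ S hρA hρ hρC (hline _ (fun g m => Subtype.ext (hfix g m.1 m.2)) h1)
    (ih _ hq (ρ.quotient C₁ hC₁) hρC rfl)

end Devissage

end

end FermatAgent.Duality
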